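import Fermat.Agent.S43.Old.H35_Tower
import Fermat.Agent.BAD.H82_Deg
import Fermat.Agent.RED.H10_NormRedAbs
import Fermat.Agent.RED.HR.H51_FinrankAlong
import Fermat.Agent.RED.H51_HKA
import Fermat.Agent.RED.H36_Fin

/-!
# S43, leaf OLD-RED (helper35): NORM-RED at the level `N = M q`

`A` a valuation subring of `ℚ̄` over `q`, `q ∤ M`, `ℓ ∤ M q` a prime.  The Gauss valuation ring
`V₁ = gaussV A (M q)` of `F_{Mq} · ℚ̄` has the residue field `F~_M = Ft A M`
(`BAD.H82.redField_eq_redField`).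

* `resTo` : the Gauss reduction with values in an intermediate field containing the reduced
  field;
* `finrank_alpha_bar`, `finrank_alphaT` : both degeneracy maps `α` have degree `ℓ + 1`;
* `hnorm_levelN` : **NORM-RED**: `res (Norm_α (β f)) = Norm_α~ (β~ (res f))` for `f ∈ V₁`;
* `levelN_eigen` : the eigen-transfer at the level `N`: if `p D = div f`, `f` a unit of `V₁`,
  `p D' = div (res f)` on `F~_M` and `T_ℓ D - t D` is principal, then `T~_ℓ D' - t D'` is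
  principal.
-/

set_option autoImplicit false
set_option linter.style.haveILetI false
set_option linter.unusedSectionVars false
set_option synthInstance.maxHeartbeats 400000
set_option maxHeartbeats 1000000

noncomputable section

open AlgebraicCurve ModularCurve Fermat.Agent.S28.H73 Fermat.Agent.RED.H73 Fermat.Agent.RED
open Fermat.Agent.BAD

namespace Fermat.Agent.S43.Old.H35

section ResTo

variable (A : ValuationSubring (AlgebraicClosure ℚ))

/-- The reduced fields of equal levels are equal. -/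
theorem redField_congr {N₁ N₂ : ℕ} (h : N₁ = N₂) : Ft A N₁ = Ft A N₂ := by
  subst h
  rfl

/-- The Gauss reduction of level `N'`, with values in an intermediate field `E` containing the
reduced field. -/
def resTo (N' : ℕ) (E : IntermediateField (kV A) (LaurentSeries (kV A)))
    (hle : Ft A N' ≤ E) : ↥(gaussV A N') →+* ↥E :=
  (gaussResF A (hasScale_laurentBaseChange A N')).codRestrict E.toSubring
    (fun x => hle (gaussResF_mem_redField A _ x))

theorem coe_resTo (N' : ℕ) (E : IntermediateField (kV A) (LaurentSeries (kV A)))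
    (hle : Ft A N' ≤ E) (x : ↥(gaussV A N')) :
    ((resTo A N' E hle x : ↥E) : LaurentSeries (kV A))
      = gaussResF A (hasScale_laurentBaseChange A N') x := rfl

theorem resTo_eq_zero_iff (N' : ℕ) (E : IntermediateField (kV A) (LaurentSeries (kV A)))
    (hle : Ft A N' ≤ E) (x : ↥(gaussV A N')) :
    resTo A N' E hle x = 0 ↔ ¬ IsUnit x := by
  rw [isUnit_iff_gaussResF_ne_zero A (hasScale_laurentBaseChange A N') x, not_not]
  constructor
  · intro h
    have := congrArg (Subtype.val) h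
    rwa [coe_resTo] at this
  · intro h
    apply Subtype.ext
    rw [coe_resTo, h]
    rfl

theorem resTo_surjective (N' : ℕ) (E : IntermediateField (kV A) (LaurentSeries (kV A)))
    (hle : Ft A N' ≤ E) (hge : E ≤ Ft A N') : Function.Surjective (resTo A N' E hle) := by
  intro y
  obtain ⟨x, hx⟩ := hge y.2
  exact ⟨x, Subtype.ext hx⟩

end ResTo

section Degree

variable (A : ValuationSubring (AlgebraicClosure ℚ))

/-- The degeneracy map `α` of level `N → N ℓ` has degree `ℓ + 1` over `ℚ̄`. -/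
theorem finrank_alpha_bar (N ℓ : ℕ) [NeZero N] [NeZero ℓ] (hℓ : ℓ.Prime) (hℓN : ¬ ℓ ∣ N) :
    finrankAlong (AlgebraicClosure ℚ) (heckeAlphaBar (AlgebraicClosure ℚ) N ℓ) = ℓ + 1 := by
  haveI : NeZero (N * ℓ) := ⟨Nat.mul_ne_zero (NeZero.ne N) (NeZero.ne ℓ)⟩
  rw [H51.finrankAlong_eq_relfinrank_map (modularFunctionFieldBar N)
    (modularFunctionFieldBar (N * ℓ)) (AlgHom.id _ _) (heckeAlphaBar (AlgebraicClosure ℚ) N ℓ)
    (fun x => coe_heckeAlphaBar N ℓ x), IntermediateField.map_id]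
  exact BAD.H82.relfinrank_FM_FN ℓ N hℓ hℓN

/-- The degeneracy map `α~` of the reduced fields has degree `ℓ + 1`. -/
theorem finrank_alphaT (M ℓ q : ℕ) [NeZero M] [NeZero ℓ] (hℓ : ℓ.Prime) (hℓM : ¬ ℓ ∣ M)
    (hq : q.Prime) (hqM : ¬ q ∣ M * ℓ) (hA : A.LiesOverPrime q) :
    finrankAlong (kV A) (alphaT A M ℓ) = ℓ + 1 := by
  haveI : NeZero (M * ℓ) := ⟨Nat.mul_ne_zero (NeZero.ne M) (NeZero.ne ℓ)⟩
  rw [H51.finrankAlong_eq_relfinrank_map (Ft A M) (Ft A (M * ℓ)) (AlgHom.id _ _)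
    (alphaT A M ℓ) (fun x => coe_alphaT A M ℓ x), IntermediateField.map_id,
    ← H36.relfinrank_level_eq (dvd_mul_right M ℓ) hq hqM A hA]
  exact BAD.H82.relfinrank_FM_FN ℓ M hℓ hℓM

end Degree

section NormRed

variable (A : ValuationSubring (AlgebraicClosure ℚ))

theorem exists_bezout {q M : ℕ} (hq : q.Prime) (hqM : ¬ q ∣ M) :
    ∃ a b : ℤ, a * q + b * M = 1 :=
  Nat.isCoprime_iff_coprime.2 ((Nat.Prime.coprime_iff_not_dvd hq).2 hqM)

/-- The residue field of the Gauss valuation of level `M q` is the reduced field of level `M`. -/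
theorem ft_mul_eq (q M : ℕ) [NeZero (M * q)] (hq : q.Prime) (hqM : ¬ q ∣ M)
    (hA : A.LiesOverPrime q) : Ft A (M * q) = Ft A M := by
  obtain ⟨a, b, hab⟩ := exists_bezout hq hqM
  exact BAD.H82.redField_eq_redField q M a b hab hq A hA

/-- **NORM-RED at the level `N = M q`.** -/
theorem hnorm_levelN (q M ℓ : ℕ) [NeZero M] [NeZero (M * q)] [NeZero ℓ] (hq : q.Prime)
    (hqM : ¬ q ∣ M) (hℓ : ℓ.Prime) (hℓN : ¬ ℓ ∣ M * q) (hA : A.LiesOverPrime q)
    (hle : Ft A (M * q) ≤ Ft A M) (f : ↥(gaussV A (M * q))) :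
    ∃ h : normAlong (heckeAlphaBar (AlgebraicClosure ℚ) (M * q) ℓ)
        (heckeBetaBar (AlgebraicClosure ℚ) (M * q) ℓ (f : ↥(FNbar (M * q)))) ∈ gaussV A (M * q),
      resTo A (M * q) (Ft A M) hle ⟨_, h⟩
        = normAlong (alphaT A M ℓ) (betaT A M ℓ (resTo A (M * q) (Ft A M) hle f)) := by
  have hℓq : ℓ ≠ q := fun h => hℓN (h ▸ dvd_mul_left ℓ M)
  have hℓM : ¬ ℓ ∣ M := fun h => hℓN (h.mul_right q)
  have hqMℓ : ¬ q ∣ M * ℓ := by
    intro h
    rcases (Nat.Prime.dvd_mul hq).1 h with h1 | h1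
    · exact hqM h1
    · exact hℓq ((Nat.prime_dvd_prime_iff_eq hq hℓ).1 h1).symm
  haveI : NeZero (M * ℓ) := ⟨Nat.mul_ne_zero (NeZero.ne M) (NeZero.ne ℓ)⟩
  haveI : NeZero (M * ℓ * q) := ⟨Nat.mul_ne_zero (NeZero.ne (M * ℓ)) hq.ne_zero⟩
  haveI : NeZero (M * q * ℓ) := ⟨Nat.mul_ne_zero (NeZero.ne (M * q)) (NeZero.ne ℓ)⟩
  have heq' : Ft A (M * q * ℓ) = Ft A (M * ℓ) :=
    (redField_congr A (Nat.mul_right_comm M q ℓ)).trans (ft_mul_eq A q (M * ℓ) hq hqMℓ hA)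
  obtain ⟨hα, hβ, hP, hfin, hFI, hNF⟩ := RED.H51.stmt_HKA (M * q) ℓ
  letI iA : Algebra ↥(FNbar (M * q)) ↥(FNbar (M * q * ℓ)) :=
    algebraAlong (heckeAlphaBar (AlgebraicClosure ℚ) (M * q) ℓ)
  letI iA' : Algebra ↥(Ft A M) ↥(Ft A (M * ℓ)) := algebraAlong (alphaT A M ℓ)
  haveI : Module.Finite ↥(FNbar (M * q)) ↥(FNbar (M * q * ℓ)) := hfin
  have hβmem : heckeBetaBar (AlgebraicClosure ℚ) (M * q) ℓ (f : ↥(FNbar (M * q)))
      ∈ gaussV A (M * q * ℓ) := by
    rw [mem_gaussValSub_iff, coe_heckeBetaBar]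
    exact qExpand_mem_gaussRingV A ℓ f.2
  have h1 : ∀ a : ↥(FNbar (M * q)), a ∈ gaussV A (M * q)
      ↔ algebraMap ↥(FNbar (M * q)) ↥(FNbar (M * q * ℓ)) a ∈ gaussV A (M * q * ℓ) := by
    intro a
    rw [mem_gaussValSub_iff, mem_gaussValSub_iff]
    show _ ↔ ((heckeAlphaBar (AlgebraicClosure ℚ) (M * q) ℓ a : ↥(FNbar (M * q * ℓ))) :
      LaurentSeries (AlgebraicClosure ℚ)) ∈ gaussRingV A
    rw [coe_heckeAlphaBar]
  have h2 : Function.Surjective (resTo A (M * q * ℓ) (Ft A (M * ℓ)) heq'.le) :=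
    resTo_surjective A _ _ heq'.le heq'.ge
  have h3 : ∀ a : ↥(gaussV A (M * q * ℓ)),
      resTo A (M * q * ℓ) (Ft A (M * ℓ)) heq'.le a = 0 ↔ ¬ IsUnit a :=
    fun a => resTo_eq_zero_iff A _ _ _ a
  have h4 : ∀ (a : ↥(gaussV A (M * q)))
      (ha : algebraMap ↥(FNbar (M * q)) ↥(FNbar (M * q * ℓ)) (a : ↥(FNbar (M * q)))
        ∈ gaussV A (M * q * ℓ)),
      resTo A (M * q * ℓ) (Ft A (M * ℓ)) heq'.le ⟨_, ha⟩
        = algebraMap ↥(Ft A M) ↥(Ft A (M * ℓ)) (resTo A (M * q) (Ft A M) hle a) := by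
    intro a ha
    apply Subtype.ext
    rw [coe_resTo]
    show _ = ((alphaT A M ℓ (resTo A (M * q) (Ft A M) hle a) : ↥(Ft A (M * ℓ))) :
      LaurentSeries (kV A))
    rw [coe_alphaT, coe_resTo, gaussResF_apply, gaussResF_apply]
    congr 1
  have h5 : Module.finrank ↥(FNbar (M * q)) ↥(FNbar (M * q * ℓ))
      = Module.finrank ↥(Ft A M) ↥(Ft A (M * ℓ)) := by
    show finrankAlong (AlgebraicClosure ℚ) (heckeAlphaBar (AlgebraicClosure ℚ) (M * q) ℓ)
      = finrankAlong (kV A) (alphaT A M ℓ)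
    rw [finrank_alpha_bar (M * q) ℓ hℓ hℓN, finrank_alphaT A M ℓ q hℓ hℓM hq hqMℓ hA]
  obtain ⟨hN, hNeq⟩ := RED.H10.stmt_NormRedAbs ↥(FNbar (M * q)) ↥(FNbar (M * q * ℓ))
    ↥(Ft A M) ↥(Ft A (M * ℓ)) (gaussV A (M * q)) (gaussV A (M * q * ℓ))
    (resTo A (M * q) (Ft A M) hle) (resTo A (M * q * ℓ) (Ft A (M * ℓ)) heq'.le)
    h1 h2 h3 h4 h5 ⟨_, hβmem⟩
  refine ⟨hN, ?_⟩
  show resTo A (M * q) (Ft A M) hle ⟨_, hN⟩ = Algebra.norm ↥(Ft A M)
    (betaT A M ℓ (resTo A (M * q) (Ft A M) hle f))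
  rw [hNeq]
  congr 1
  apply Subtype.ext
  rw [coe_resTo, coe_betaT, coe_resTo, gaussResF_apply, gaussResF_apply]
  exact gaussRedV_qExpand A ℓ ⟨_, f.2⟩ _

end NormRed

section Eigen

variable (A : ValuationSubring (AlgebraicClosure ℚ))

theorem resTo_scale (N' : ℕ) (E : IntermediateField (kV A) (LaurentSeries (kV A)))
    (hle : Ft A N' ≤ E) (f : ↥(FNbar N')) (hf : f ≠ 0) :
    ∃ c : AlgebraicClosure ℚ, c ≠ 0 ∧
      ∃ h : algebraMap (AlgebraicClosure ℚ) ↥(FNbar N') c * f ∈ gaussV A N',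
        resTo A N' E hle ⟨_, h⟩ ≠ 0 := by
  obtain ⟨c, u, hc, hu⟩ := exists_unit_scale A (hasScale_laurentBaseChange A N') f hf
  have hmul : algebraMap (AlgebraicClosure ℚ) ↥(FNbar N') c⁻¹ * f
      = ((u : ↥(gaussV A N')) : ↥(FNbar N')) := by
    rw [hu, ← mul_assoc, ← map_mul, inv_mul_cancel₀ hc, map_one, one_mul]
  refine ⟨c⁻¹, inv_ne_zero hc, ?_, ?_⟩
  · rw [hmul]
    exact (u : ↥(gaussV A N')).2
  · intro h0
    rw [resTo_eq_zero_iff] at h0
    apply h0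
    have : (⟨algebraMap (AlgebraicClosure ℚ) ↥(FNbar N') c⁻¹ * f, by
        rw [hmul]; exact (u : ↥(gaussV A N')).2⟩ : ↥(gaussV A N')) = (u : ↥(gaussV A N')) :=
      Subtype.ext hmul
    rw [this]
    exact u.isUnit

theorem resTo_const (N' : ℕ) (E : IntermediateField (kV A) (LaurentSeries (kV A)))
    (hle : Ft A N' ≤ E) (c : AlgebraicClosure ℚ)
    (h : algebraMap (AlgebraicClosure ℚ) ↥(FNbar N') c ∈ gaussV A N') :
    ∃ c' : kV A, resTo A N' E hle ⟨_, h⟩ = algebraMap (kV A) ↥E c' := by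
  have hc : c ∈ A := (algebraMap_mem_gaussValSub_iff A (hasScale_laurentBaseChange A N') c).1 h
  refine ⟨resV A ⟨c, hc⟩, Subtype.ext ?_⟩
  rw [coe_resTo, coe_algebraMap_F]
  exact gaussResF_algebraMap A (hasScale_laurentBaseChange A N') ⟨c, hc⟩ h

end Eigen

end Fermat.Agent.S43.Old.H35
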