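import Fermat.Agent.RED.H17_Red
import Fermat.Prelude.Def_AlgebraicCurve_Correspondence

/-!
# S43, leaf OLD-RED (helper35), abstract part

`L / K` a function field with a valuation ring `V` and a reduction map `red : V → F'` onto a
function field `F' / k`; Hecke towers `α, β : L → L'` and `α', β' : F' → F''` such that the norm
along `α` of `β f` reduces to the norm along `α'` of `β' (red f)` (NORM-RED).

* `normAlong α x` : the norm of `x` along `α`;
* `corr_ord` : `n · T D = div (Norm_α (β f))` if `n · D = div f` (any tower);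
* `tilde_eigen_of_eigen` : if `p D = div f`, `f` a unit of `V`, `p D' = div (red f)` and
  `T D - t D` is principal, then `T' D' - t D'` is principal.
* `mapDomain_eigen_of_hr` : the level `M` side: if `r_* T = T' r_*` modulo principal divisors and
  `r_* D_z - D'` is principal then `r_* (T D_z) - t r_* D_z` is principal.
-/

set_option autoImplicit false
set_option linter.style.haveILetI false

noncomputable section

open AlgebraicCurve

namespace Fermat.Agent.S43.Old.H35

open Fermat.Agent.RED.H17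

section Norm

variable {K F F' : Type*} [Field K] [Field F] [Field F'] [Algebra K F] [Algebra K F']

/-- The norm along `α`. -/
def normAlong (α : F →ₐ[K] F') (x : F') : F :=
  letI := algebraAlong α
  Algebra.norm F x

theorem normAlong_ne_zero (α : F →ₐ[K] F') (hfin : FiniteAlong K α) {x : F'} (hx : x ≠ 0) :
    normAlong α x ≠ 0 := by
  letI := algebraAlong α
  haveI : Module.Finite F F' := hfin
  exact Algebra.norm_ne_zero_iff.mpr hx

/-- `n • T D = div (Norm_α (β f))` if `n • D = div f`. -/
theorem corr_ord (β α : F →ₐ[K] F') (hβ : β.toRingHom.IsIntegral) (hα : α.toRingHom.IsIntegral)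
    [HasPrincipalDivisors K F'] (hfin : FiniteAlong K α) (hN : NormFormulaAlong K α hfin)
    (n : ℤ) (D : Divisor K F) {f : F} (hf : f ≠ 0)
    (hD : ∀ v : Place K F, n * D v = v.ord f) (v : Place K F) :
    n * Divisor.correspondence β α hβ hα D v = v.ord (normAlong α (β f)) := by
  have hE : ∀ v : Place K F, (n • D) v = v.ord f := fun v => by
    rw [Finsupp.smul_apply, smul_eq_mul, hD v]
  have h1 : ∀ w : Place K F', Divisor.pullbackAlong β hβ (n • D) w = w.ord (β f) := by
    intro w
    letI := algebraAlong β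
    haveI := isScalarTower_along β
    haveI := isIntegral_along β hβ
    exact Divisor.pullback_apply_eq_ord hE w
  have hβf : β f ≠ 0 := by
    intro h0
    exact hf (β.toRingHom.injective (by simpa using h0))
  have h2 : Divisor.pushforwardAlong α hα (Divisor.pullbackAlong β hβ (n • D)) v
      = v.ord (normAlong α (β f)) := by
    letI := algebraAlong α
    haveI := isScalarTower_along α
    haveI := isIntegral_along α hα
    haveI : Module.Finite F F' := hfin
    exact hN _ hβf _ h1 v
  have h3 : Divisor.correspondence β α hβ hα (n • D)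
      = n • Divisor.correspondence β α hβ hα D := map_zsmul _ n D
  rw [← h2, ← Divisor.correspondence_apply, h3, Finsupp.smul_apply, smul_eq_mul]

end Norm

section LevelN

variable {K L L' k F' F'' : Type*} [Field K] [Field L] [Field L'] [Algebra K L] [Algebra K L']
  [Field k] [Field F'] [Field F''] [Algebra k F'] [Algebra k F'']

/-- **OLD-RED, level `N` side (abstract).** -/
theorem tilde_eigen_of_eigen
    (hconstL : ∀ g : L, g ≠ 0 → (∀ P : Place K L, P.ord g = 0) → ∃ c : K, g = algebraMap K L c)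
    (α β : L →ₐ[K] L') (hα : α.toRingHom.IsIntegral) (hβ : β.toRingHom.IsIntegral)
    [HasPrincipalDivisors K L'] (hfin : FiniteAlong K α) (hNF : NormFormulaAlong K α hfin)
    (α' β' : F' →ₐ[k] F'') (hα' : α'.toRingHom.IsIntegral) (hβ' : β'.toRingHom.IsIntegral)
    [HasPrincipalDivisors k F''] (hfin' : FiniteAlong k α') (hNF' : NormFormulaAlong k α' hfin')
    (V : ValuationSubring L) (red : ↥V →+* F')
    (hred0 : ∀ u : ↥V, red u = 0 ↔ ¬ IsUnit u)
    (hscale : ∀ f : L, f ≠ 0 → ∃ c : K, c ≠ 0 ∧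
      ∃ h : algebraMap K L c * f ∈ V, red ⟨_, h⟩ ≠ 0)
    (hconst : ∀ (c : K) (h : algebraMap K L c ∈ V), ∃ c' : k,
      red ⟨_, h⟩ = algebraMap k F' c')
    (hnorm : ∀ f : ↥V, ∃ h : normAlong α (β (f : L)) ∈ V,
      red ⟨_, h⟩ = normAlong α' (β' (red f)))
    (p : ℕ) (hp : p ≠ 0) (t : ℤ)
    (D : Divisor K L) (f : ↥V) (hf : red f ≠ 0)
    (hD : ∀ P : Place K L, (p : ℤ) * D P = P.ord (f : L))
    (D' : Divisor k F') (hD' : ∀ Q : Place k F', (p : ℤ) * D' Q = Q.ord (red f))
    (heig : (Divisor.correspondence β α hβ hα D - t • D).IsPrincipal) :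
    (Divisor.correspondence β' α' hβ' hα' D' - t • D').IsPrincipal := by
  obtain ⟨h, hh0, hh⟩ := heig
  have hpZ : (p : ℤ) ≠ 0 := by exact_mod_cast hp
  have hne : ∀ u : ↥V, red u ≠ 0 → (u : L) ≠ 0 := by
    intro u hu h0
    have : u = 0 := Subtype.ext h0
    rw [this, map_zero] at hu
    exact hu rfl
  have hf0 : (f : L) ≠ 0 := hne f hf
  -- the Kummer function of `T D`
  obtain ⟨hnfV, hnfred⟩ := hnorm f
  set nf : ↥V := ⟨normAlong α (β (f : L)), hnfV⟩ with hnf
  have hβ'g : β' (red f) ≠ 0 := by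
    intro h0
    exact hf (β'.toRingHom.injective (by simpa using h0))
  have hnfred0 : red nf ≠ 0 := by
    rw [hnfred]
    exact normAlong_ne_zero α' hfin' hβ'g
  have hnf0 : (nf : L) ≠ 0 := hne nf hnfred0
  have hordnf : ∀ P : Place K L,
      P.ord (nf : L) = (p : ℤ) * Divisor.correspondence β α hβ hα D P := fun P =>
    (corr_ord β α hβ hα hfin hNF (p : ℤ) D hf0 hD P).symm
  -- scale `h`
  obtain ⟨c₁, hc₁, hh1V, hh1red⟩ := hscale h hh0
  set h1 : ↥V := ⟨algebraMap K L c₁ * h, hh1V⟩ with hh1
  have hh10 : (h1 : L) ≠ 0 := hne h1 hh1red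
  have hordh1 : ∀ P : Place K L, P.ord (h1 : L) = P.ord h := fun P =>
    ord_algebraMap_mul P hc₁ h
  -- exponents
  obtain ⟨a, b, hab⟩ : ∃ a b : ℕ, t = (a : ℤ) - (b : ℤ) :=
    ⟨t.toNat, (-t).toNat, by omega⟩
  set w : ↥V := nf * f ^ b with hw
  set u : ↥V := f ^ a * h1 ^ p with hu
  have hwred : red w ≠ 0 := by
    rw [hw, map_mul, map_pow]
    exact mul_ne_zero hnfred0 (pow_ne_zero _ hf)
  have hured : red u ≠ 0 := by
    rw [hu, map_mul, map_pow, map_pow]
    exact mul_ne_zero (pow_ne_zero _ hf) (pow_ne_zero _ hh1red)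
  have hw0 : (w : L) ≠ 0 := hne w hwred
  have hu0 : (u : L) ≠ 0 := hne u hured
  have huU : IsUnit u := by
    by_contra hcon
    exact hured ((hred0 u).2 hcon)
  obtain ⟨uu, huu⟩ := huU
  -- the quotient has no zeros and poles
  have hwcoe : (w : L) = (nf : L) * (f : L) ^ b := rfl
  have hucoe : (u : L) = (f : L) ^ a * (h1 : L) ^ p := rfl
  have hord : ∀ P : Place K L, P.ord ((w : L) / (u : L)) = 0 := by
    intro P
    rw [ord_div P hw0 hu0, hwcoe, hucoe, P.ord_mul hnf0 (pow_ne_zero _ hf0),
      P.ord_mul (pow_ne_zero _ hf0) (pow_ne_zero _ hh10), ord_pow, ord_pow, ord_pow,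
      hordnf P, hordh1 P, ← hh P, ← hD P, Finsupp.sub_apply, Finsupp.smul_apply, smul_eq_mul,
      hab]
    ring
  obtain ⟨c₀, hc₀⟩ := hconstL _ (div_ne_zero hw0 hu0) hord
  have hc₀V : algebraMap K L c₀ ∈ V := by
    rw [← hc₀]
    have h1' : (w : L) / (u : L) = ((w * ((uu⁻¹ : (↥V)ˣ) : ↥V) : ↥V) : L) := by
      have h2 : ((uu⁻¹ : (↥V)ˣ) : ↥V) * u = 1 := by
        rw [← huu]
        exact Units.inv_mul uu
      have h3 : ((((uu⁻¹ : (↥V)ˣ) : ↥V)) : L) * (u : L) = 1 := by
        have := congrArg (fun z : ↥V => (z : L)) h2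
        simpa using this
      have h4 : ((((uu⁻¹ : (↥V)ˣ) : ↥V)) : L) = (u : L)⁻¹ := eq_inv_of_mul_eq_one_left h3
      rw [div_eq_mul_inv, ← h4]
      rfl
    rw [h1']
    exact Subtype.property _
  obtain ⟨c₀', hc₀'⟩ := hconst c₀ hc₀V
  have hrel : (⟨algebraMap K L c₀, hc₀V⟩ : ↥V) * u = w := by
    apply Subtype.ext
    show algebraMap K L c₀ * (u : L) = (w : L)
    rw [← hc₀, div_mul_cancel₀ _ hu0]
  have hrelred : algebraMap k F' c₀' * red u = red w := by
    rw [← hc₀', ← map_mul, hrel]
  have hc₀'0 : c₀' ≠ 0 := by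
    rintro rfl
    rw [map_zero, zero_mul] at hrelred
    exact hwred hrelred.symm
  -- orders of the reductions
  refine ⟨red h1, hh1red, fun Q => ?_⟩
  have hQ1 : Q.ord (red nf) = (p : ℤ) * Divisor.correspondence β' α' hβ' hα' D' Q := by
    rw [hnfred]
    exact (corr_ord β' α' hβ' hα' hfin' hNF' (p : ℤ) D' hf hD' Q).symm
  have hQ2 := congrArg Q.ord hrelred
  rw [ord_algebraMap_mul Q hc₀'0, hu, hw, map_mul, map_pow, map_pow, map_mul, map_pow,
    Q.ord_mul (pow_ne_zero _ hf) (pow_ne_zero _ hh1red),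
    Q.ord_mul hnfred0 (pow_ne_zero _ hf), ord_pow, ord_pow, ord_pow, hQ1, ← hD' Q] at hQ2
  rw [Finsupp.sub_apply, Finsupp.smul_apply, smul_eq_mul, hab]
  have h5 : (p : ℤ) * (Divisor.correspondence β' α' hβ' hα' D' Q
      - ((a : ℤ) - (b : ℤ)) * D' Q) = (p : ℤ) * Q.ord (red h1) := by
    linear_combination -hQ2
  exact mul_left_cancel₀ hpZ h5

end LevelN

section LevelM

variable {K E E' k F' F'' : Type*} [Field K] [Field E] [Field E'] [Algebra K E] [Algebra K E']
  [Field k] [Field F'] [Field F''] [Algebra k F'] [Algebra k F'']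

/-- **OLD-RED, level `M` side (abstract).** -/
theorem mapDomain_eigen_of_hr
    (α β : E →ₐ[K] E') (hα : α.toRingHom.IsIntegral) (hβ : β.toRingHom.IsIntegral)
    [HasPrincipalDivisors K E']
    (α' β' : F' →ₐ[k] F'') (hα' : α'.toRingHom.IsIntegral) (hβ' : β'.toRingHom.IsIntegral)
    [HasPrincipalDivisors k F''] (hfin' : FiniteAlong k α') (hNF' : NormFormulaAlong k α' hfin')
    (r : Place K E → Place k F')
    (hHR : ∀ D : Divisor K E, Divisor.IsPrincipal (K := k) (F := F')
      (Finsupp.mapDomain r (Divisor.correspondence β α hβ hα D)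
        - Divisor.correspondence β' α' hβ' hα' (Finsupp.mapDomain r D)))
    (t : ℤ) (D' : Divisor k F')
    (heig : (Divisor.correspondence β' α' hβ' hα' D' - t • D').IsPrincipal)
    (Dz : Divisor K E)
    (hDz : Divisor.IsPrincipal (K := k) (F := F') (Finsupp.mapDomain r Dz - D')) :
    Divisor.IsPrincipal (K := k) (F := F')
      (Finsupp.mapDomain r (Divisor.correspondence β α hβ hα Dz)
        - t • Finsupp.mapDomain r Dz) := by
  have h1 : Divisor.correspondence β' α' hβ' hα' (Finsupp.mapDomain r Dz - D')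
      ∈ Divisor.principal (K := k) (F := F') :=
    Divisor.correspondence_mem_principal β' α' hβ' hα' hfin' hNF' hDz
  have h2 : t • (Finsupp.mapDomain r Dz - D') ∈ Divisor.principal (K := k) (F := F') :=
    (Divisor.principal (K := k) (F := F')).zsmul_mem hDz t
  have h3 := (Divisor.principal (K := k) (F := F')).add_mem
    ((Divisor.principal (K := k) (F := F')).add_mem (hHR Dz) h1)
    ((Divisor.principal (K := k) (F := F')).sub_mem heig h2)
  have e : Finsupp.mapDomain r (Divisor.correspondence β α hβ hα Dz)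
      - t • Finsupp.mapDomain r Dz
      = (Finsupp.mapDomain r (Divisor.correspondence β α hβ hα Dz)
          - Divisor.correspondence β' α' hβ' hα' (Finsupp.mapDomain r Dz))
        + Divisor.correspondence β' α' hβ' hα' (Finsupp.mapDomain r Dz - D')
        + ((Divisor.correspondence β' α' hβ' hα' D' - t • D')
          - t • (Finsupp.mapDomain r Dz - D')) := by
    rw [map_sub, smul_sub]
    abel
  rw [e]
  exact h3

end LevelM

end Fermat.Agent.S43.Old.H35
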