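import Fermat.Agent.RED.H36_RM
import Fermat.Agent.RED.H51_Final
import Fermat.Agent.S43.Old.H35_Abs

/-!
# S43, leaf OLD-RED (helper35): the Hecke tower of the reduced fields

`A` a valuation subring of `ℚ̄` over `q`, `k = kV A`, `M` prime to `q`, `ℓ` a prime.
`Ft A M = redField A (F_M · ℚ̄) ⊆ k((t))`.

* `inclHom`, `qexpHom` : inclusion and substitution `t ↦ t ^ ℓ` between intermediate fields of
  `k((t))`;
* `ft_le`, `ft_qexp` : `Ft A M ⊆ Ft A (M ℓ)` and `t ↦ t ^ ℓ` maps `Ft A M` into `Ft A (M ℓ)`;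
* `alphaT`, `betaT` : the degeneracy maps of the reduced fields;
* `towerInputs` : integrality, principal divisors, finiteness, fundamental identity and norm
  formula for the reduced tower (FF-B over `k`).
-/

set_option autoImplicit false
set_option linter.style.haveILetI false
set_option synthInstance.maxHeartbeats 400000
set_option maxHeartbeats 1000000

noncomputable section

open AlgebraicCurve ModularCurve Fermat.Agent.S28.H73 Fermat.Agent.RED.H73 Fermat.Agent.RED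

namespace Fermat.Agent.S43.Old.H35

section Generic

variable {k : Type} [Field k] {E E' : IntermediateField k (LaurentSeries k)}

/-- The inclusion of intermediate fields as an algebra hom. -/
def inclHom (h : E ≤ E') : ↥E →ₐ[k] ↥E' := IntermediateField.inclusion h

@[simp] theorem coe_inclHom (h : E ≤ E') (x : ↥E) :
    ((inclHom h x : ↥E') : LaurentSeries k) = (x : LaurentSeries k) := rfl

/-- The substitution `t ↦ t ^ ℓ`. -/
def qexpHom (ℓ : ℕ) [NeZero ℓ] (h : ∀ x ∈ E, qExpand k ℓ x ∈ E') : ↥E →ₐ[k] ↥E' where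
  toFun x := ⟨qExpand k ℓ (x : LaurentSeries k), h _ x.2⟩
  map_one' := Subtype.ext (map_one (qExpand k ℓ))
  map_mul' _ _ := Subtype.ext (map_mul (qExpand k ℓ) _ _)
  map_zero' := Subtype.ext (map_zero (qExpand k ℓ))
  map_add' _ _ := Subtype.ext (map_add (qExpand k ℓ) _ _)
  commutes' a := Subtype.ext <| by
    show qExpand k ℓ (algebraMap k (LaurentSeries k) a) = algebraMap k (LaurentSeries k) a
    rw [algebraMap_laurentSeries_eq_single, qExpand_single, mul_zero]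

@[simp] theorem coe_qexpHom (ℓ : ℕ) [NeZero ℓ] (h : ∀ x ∈ E, qExpand k ℓ x ∈ E') (x : ↥E) :
    ((qexpHom ℓ h x : ↥E') : LaurentSeries k) = qExpand k ℓ (x : LaurentSeries k) := rfl

end Generic

section Modular

variable (A : ValuationSubring (AlgebraicClosure ℚ))

/-- The reduced field of level `M`. -/
abbrev Ft (M : ℕ) : IntermediateField (kV A) (LaurentSeries (kV A)) :=
  redField A (modularFunctionFieldBar M) (hasScale_laurentBaseChange A M)

/-- The Gauss reduction of an element of `F_M · ℚ̄` lies in every reduced field of a level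
divisible by `M`. -/
theorem gaussRedV_mem_Ft {M M' : ℕ} (hMM' : M ∣ M') {x : LaurentSeries (AlgebraicClosure ℚ)}
    (hx : x ∈ modularFunctionFieldBar M) (hg : x ∈ gaussRingV A) :
    gaussRedV A ⟨x, hg⟩ ∈ Ft A M' :=
  ⟨⟨⟨x, Fermat.Agent.S18.modularFunctionFieldBar_mono hMM' hx⟩, hg⟩, rfl⟩

theorem ft_le {M M' : ℕ} (hMM' : M ∣ M') : Ft A M ≤ Ft A M' := by
  rintro y ⟨x, rfl⟩
  exact gaussRedV_mem_Ft A hMM' x.1.2 x.2

theorem ft_qexp (M ℓ : ℕ) [NeZero M] [NeZero ℓ] :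
    ∀ y ∈ Ft A M, qExpand (kV A) ℓ y ∈ Ft A (M * ℓ) := by
  rintro y ⟨x, rfl⟩
  have hm : qExpand (AlgebraicClosure ℚ) ℓ ((x : ↥(modularFunctionFieldBar M)) :
      LaurentSeries (AlgebraicClosure ℚ)) ∈ gaussRingV A := qExpand_mem_gaussRingV A ℓ x.2
  refine ⟨⟨heckeBetaBar (AlgebraicClosure ℚ) M ℓ (x : ↥(modularFunctionFieldBar M)), hm⟩, ?_⟩
  rw [gaussResF_apply, gaussResF_apply]
  exact gaussRedV_qExpand A ℓ ⟨_, x.2⟩ hm

variable (M ℓ : ℕ) [NeZero M] [NeZero ℓ]

/-- The degeneracy map `α~` (inclusion) of the reduced fields. -/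
def alphaT : ↥(Ft A M) →ₐ[kV A] ↥(Ft A (M * ℓ)) := inclHom (ft_le A (dvd_mul_right M ℓ))

/-- The degeneracy map `β~` (substitution `t ↦ t ^ ℓ`) of the reduced fields. -/
def betaT : ↥(Ft A M) →ₐ[kV A] ↥(Ft A (M * ℓ)) := qexpHom ℓ (ft_qexp A M ℓ)

theorem coe_alphaT (x : ↥(Ft A M)) :
    ((alphaT A M ℓ x : ↥(Ft A (M * ℓ))) : LaurentSeries (kV A)) = (x : LaurentSeries (kV A)) :=
  coe_inclHom (ft_le A (dvd_mul_right M ℓ)) x

theorem coe_betaT (x : ↥(Ft A M)) :
    ((betaT A M ℓ x : ↥(Ft A (M * ℓ))) : LaurentSeries (kV A))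
      = qExpand (kV A) ℓ (x : LaurentSeries (kV A)) :=
  coe_qexpHom ℓ (ft_qexp A M ℓ) x

/-- The function field inputs of the reduced tower. -/
structure TowerInputs : Prop where
  hα : (alphaT A M ℓ).toRingHom.IsIntegral
  hβ : (betaT A M ℓ).toRingHom.IsIntegral
  hP : HasPrincipalDivisors (kV A) ↥(Ft A (M * ℓ))
  hP₀ : HasPrincipalDivisors (kV A) ↥(Ft A M)
  hfin : FiniteAlong (kV A) (alphaT A M ℓ)
  hFI : letI := hP; FundamentalIdentityAlong (kV A) (betaT A M ℓ) hβ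
  hNF : NormFormulaAlong (kV A) (alphaT A M ℓ) hfin
  hdeg : ∀ Q : Place (kV A) ↥(Ft A M), Q.deg = 1

variable {A M ℓ}

theorem towerInputs {q : ℕ} (hq : q.Prime) (hA : A.LiesOverPrime q) (hqM : ¬ q ∣ M * ℓ) :
    TowerInputs A M ℓ := by
  haveI : IsAlgClosed (kV A) := isAlgClosed_kV A
  haveI : NeZero (M * ℓ) := ⟨Nat.mul_ne_zero (NeZero.ne M) (NeZero.ne ℓ)⟩
  have hqM' : ¬ q ∣ M := fun h => hqM (h.mul_right ℓ)
  have hF := isFF_redField_bar M q hq hqM' A hA
  have hF' := isFF_redField_bar (M * ℓ) q hq hqM A hA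
  have hP := H51.stmt_FFB_principal _ _ hF'
  obtain ⟨hα, hfin⟩ := H51.stmt_FFB_finite _ _ _ hF hF' (alphaT A M ℓ)
  obtain ⟨hβ, -⟩ := H51.stmt_FFB_finite _ _ _ hF hF' (betaT A M ℓ)
  exact ⟨hα, hβ, hP, H51.stmt_FFB_principal _ _ hF, hfin,
    H51.stmt_FFB_fundamental _ _ _ hF hF' _ hβ hP, H51.stmt_FFB_norm _ _ _ hF hF' _ hfin,
    H51.stmt_FFB_deg _ _ hF⟩

end Modular

end Fermat.Agent.S43.Old.H35
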