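import Fermat.Agent.S43.Old.H35_LevelM
import Fermat.Agent.RED.HR.H78_HRAbs
import Fermat.Agent.RED.HR.H69_DegInst

/-!
# G-RED HR / S43 OLD-RED (helper35): `r_* T_s = T~_s r_*` on all divisors

`A` a valuation subring of `ℚ̄` over `q`, `q ∤ M`, `s ≠ q` a prime (`s ∣ M` allowed), `r` a
reduction map of places of `F_M · ℚ̄` with the conservation law and the moving lemma.

* `finrank_alpha_eq` : the degeneracy maps `α`, `α~` have the same degree (any `s`, `q ∤ M s`);
* `hnorm_gen` : **NORM-RED** along `α` at the level `M`, any `s` with `q ∤ M s`;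
* `hr_div` : `r_* (T_s D) = T~_s (r_* D)` for ALL divisors `D`, where
  `T~_s = Divisor.correspondence (betaT A M s) (alphaT A M s)`
  (helper78's abstract theorem `H78.hr_abs`, helper51's and helper69's degree of `β`).
-/

set_option autoImplicit false
set_option linter.style.haveILetI false
set_option linter.unusedSectionVars false
set_option synthInstance.maxHeartbeats 400000
set_option maxHeartbeats 1000000

noncomputable section

open AlgebraicCurve ModularCurve Fermat.Agent.S28.H73 Fermat.Agent.RED.H73 Fermat.Agent.RED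
open Fermat.Agent.BAD

namespace Fermat.Agent.S43.Old.H35

section HRDiv

variable (A : ValuationSubring (AlgebraicClosure ℚ))

/-- The degeneracy maps `α` and `α~` have the same degree. -/
theorem finrank_alpha_eq (q M s : ℕ) [NeZero M] [NeZero s] (hq : q.Prime)
    (hqMs : ¬ q ∣ M * s) (hA : A.LiesOverPrime q) :
    finrankAlong (AlgebraicClosure ℚ) (heckeAlphaBar (AlgebraicClosure ℚ) M s)
      = finrankAlong (kV A) (alphaT A M s) := by
  haveI : NeZero (M * s) := ⟨Nat.mul_ne_zero (NeZero.ne M) (NeZero.ne s)⟩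
  rw [H51.finrankAlong_eq_relfinrank_map (modularFunctionFieldBar M)
    (modularFunctionFieldBar (M * s)) (AlgHom.id _ _) (heckeAlphaBar (AlgebraicClosure ℚ) M s)
    (fun x => coe_heckeAlphaBar M s x), IntermediateField.map_id,
    H51.finrankAlong_eq_relfinrank_map (Ft A M) (Ft A (M * s)) (AlgHom.id _ _)
    (alphaT A M s) (fun x => coe_alphaT A M s x), IntermediateField.map_id]
  exact H36.relfinrank_level_eq (dvd_mul_right M s) hq hqMs A hA

/-- **NORM-RED at the good level `M`**, any `s` (values in `resTo`). -/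
theorem hnorm_gen' (q M s : ℕ) [NeZero M] [NeZero s] (hq : q.Prime)
    (hqMs : ¬ q ∣ M * s) (hA : A.LiesOverPrime q) (f : ↥(gaussV A M)) :
    ∃ h : normAlong (heckeAlphaBar (AlgebraicClosure ℚ) M s)
        (heckeBetaBar (AlgebraicClosure ℚ) M s (f : ↥(FNbar M))) ∈ gaussV A M,
      resTo A M (Ft A M) le_rfl ⟨_, h⟩
        = normAlong (alphaT A M s) (betaT A M s (resTo A M (Ft A M) le_rfl f)) := by
  haveI : NeZero (M * s) := ⟨Nat.mul_ne_zero (NeZero.ne M) (NeZero.ne s)⟩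
  obtain ⟨hα, hβ, hP, hfin, hFI, hNF⟩ := RED.H51.stmt_HKA M s
  letI iA : Algebra ↥(FNbar M) ↥(FNbar (M * s)) :=
    algebraAlong (heckeAlphaBar (AlgebraicClosure ℚ) M s)
  letI iA' : Algebra ↥(Ft A M) ↥(Ft A (M * s)) := algebraAlong (alphaT A M s)
  haveI : Module.Finite ↥(FNbar M) ↥(FNbar (M * s)) := hfin
  have hβmem : heckeBetaBar (AlgebraicClosure ℚ) M s (f : ↥(FNbar M)) ∈ gaussV A (M * s) := by
    rw [mem_gaussValSub_iff, coe_heckeBetaBar]
    exact qExpand_mem_gaussRingV A s f.2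
  have h1 : ∀ a : ↥(FNbar M), a ∈ gaussV A M
      ↔ algebraMap ↥(FNbar M) ↥(FNbar (M * s)) a ∈ gaussV A (M * s) := by
    intro a
    rw [mem_gaussValSub_iff, mem_gaussValSub_iff]
    show _ ↔ ((heckeAlphaBar (AlgebraicClosure ℚ) M s a : ↥(FNbar (M * s))) :
      LaurentSeries (AlgebraicClosure ℚ)) ∈ gaussRingV A
    rw [coe_heckeAlphaBar]
  have h2 : Function.Surjective (resTo A (M * s) (Ft A (M * s)) le_rfl) :=
    resTo_surjective A _ _ le_rfl le_rfl
  have h3 : ∀ a : ↥(gaussV A (M * s)),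
      resTo A (M * s) (Ft A (M * s)) le_rfl a = 0 ↔ ¬ IsUnit a :=
    fun a => resTo_eq_zero_iff A _ _ _ a
  have h4 : ∀ (a : ↥(gaussV A M))
      (ha : algebraMap ↥(FNbar M) ↥(FNbar (M * s)) (a : ↥(FNbar M)) ∈ gaussV A (M * s)),
      resTo A (M * s) (Ft A (M * s)) le_rfl ⟨_, ha⟩
        = algebraMap ↥(Ft A M) ↥(Ft A (M * s)) (resTo A M (Ft A M) le_rfl a) := by
    intro a ha
    apply Subtype.ext
    rw [coe_resTo]
    show _ = ((alphaT A M s (resTo A M (Ft A M) le_rfl a) : ↥(Ft A (M * s))) :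
      LaurentSeries (kV A))
    rw [coe_alphaT, coe_resTo, gaussResF_apply, gaussResF_apply]
    congr 1
  have h5 : Module.finrank ↥(FNbar M) ↥(FNbar (M * s))
      = Module.finrank ↥(Ft A M) ↥(Ft A (M * s)) :=
    finrank_alpha_eq A q M s hq hqMs hA
  obtain ⟨hN, hNeq⟩ := RED.H10.stmt_NormRedAbs ↥(FNbar M) ↥(FNbar (M * s))
    ↥(Ft A M) ↥(Ft A (M * s)) (gaussV A M) (gaussV A (M * s))
    (resTo A M (Ft A M) le_rfl) (resTo A (M * s) (Ft A (M * s)) le_rfl)
    h1 h2 h3 h4 h5 ⟨_, hβmem⟩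
  refine ⟨hN, ?_⟩
  show resTo A M (Ft A M) le_rfl ⟨_, hN⟩ = Algebra.norm ↥(Ft A M)
    (betaT A M s (resTo A M (Ft A M) le_rfl f))
  rw [hNeq]
  congr 1
  apply Subtype.ext
  rw [coe_resTo, coe_betaT, coe_resTo, gaussResF_apply, gaussResF_apply]
  exact gaussRedV_qExpand A s ⟨_, f.2⟩ _

/-- **NORM-RED at the good level `M`**, any `s` with `q ∤ M s`. -/
theorem hnorm_gen (q M s : ℕ) [NeZero M] [NeZero s] (hq : q.Prime)
    (hqMs : ¬ q ∣ M * s) (hA : A.LiesOverPrime q) (f : ↥(gaussV A M)) :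
    ∃ h : normAlong (heckeAlphaBar (AlgebraicClosure ℚ) M s)
        (heckeBetaBar (AlgebraicClosure ℚ) M s (f : ↥(FNbar M))) ∈ gaussV A M,
      gaussRes A M ⟨_, h⟩ = normAlong (alphaT A M s) (betaT A M s (gaussRes A M f)) := by
  obtain ⟨h, he⟩ := hnorm_gen' A q M s hq hqMs hA f
  refine ⟨h, ?_⟩
  rw [← resTo_self, ← resTo_self]
  exact he

/-- **HR on divisors**: `r_* (T_s D) = T~_s (r_* D)` for all divisors `D`
(`A` over `q`, `q ∤ M`, `s ≠ q` prime). -/
theorem hr_div (q M s : ℕ) [NeZero M] [NeZero s] (hq : q.Prime) (hs : s.Prime) (hsq : s ≠ q)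
    (hqM : ¬ q ∣ M) (hA : A.LiesOverPrime q)
    (hα : HeckeAlphaBarIntegral (AlgebraicClosure ℚ) M s)
    (hβ : HeckeBetaBarIntegral (AlgebraicClosure ℚ) M s)
    [HasPrincipalDivisors (AlgebraicClosure ℚ) ↥(modularFunctionFieldBar (M * s))]
    (hα' : (alphaT A M s).toRingHom.IsIntegral) (hβ' : (betaT A M s).toRingHom.IsIntegral)
    [HasPrincipalDivisors (kV A) ↥(Ft A (M * s))]
    (r : Place (AlgebraicClosure ℚ) ↥(modularFunctionFieldBar M) → Place (kV A) ↥(Ft A M))
    (hr : IsRed A (hasScale_laurentBaseChange A M) r)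
    (hm : HasMove A (hasScale_laurentBaseChange A M) r)
    (D : Divisor (AlgebraicClosure ℚ) ↥(modularFunctionFieldBar M)) :
    Finsupp.mapDomain r (heckeDivBar hα hβ D)
      = Divisor.correspondence (betaT A M s) (alphaT A M s) hβ' hα' (Finsupp.mapDomain r D) := by
  haveI : IsAlgClosed (AlgebraicClosure ℚ) := inferInstance
  have hqMs : ¬ q ∣ M * s := by
    intro h
    rcases (Nat.Prime.dvd_mul hq).1 h with h1 | h1
    · exact hqM h1
    · exact hsq ((Nat.prime_dvd_prime_iff_eq hq hs).1 h1).symm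
  obtain ⟨hα₀, hβ₀, hP₀, hfin, hFI, hNF⟩ := RED.H51.stmt_HKA M s
  have TI := towerInputs (A := A) (M := M) (ℓ := s) hq hA hqMs
  have hFF := Fermat.Agent.RED.H95.stmt_HKA_isFF M
  exact Fermat.Agent.RED.H78.hr_abs
    (heckeAlphaBar (AlgebraicClosure ℚ) M s) (heckeBetaBar (AlgebraicClosure ℚ) M s) hα hβ
    (alphaT A M s) (betaT A M s) hα' hβ' (gaussV A M) (gaussRes A M) r
    (H51.stmt_FFB_principal _ _ hFF) (H51.stmt_FFB_deg _ _ hFF) TI.hdeg
    hFI TI.hFI hfin hNF TI.hfin TI.hNF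
    (Fermat.Agent.RED.H69D.finrankAlong_beta_eq M q s hq hs hsq hqM A hA)
    (fun a ha => (isUnit_iff_gaussResF_ne_zero A (hasScale_laurentBaseChange A M) a).2
      (fun h0 => ha (Subtype.ext ((coe_gaussRes A M a).trans (h0.trans rfl)))))
    hr hm
    (fun u _ => hnorm_gen A q M s hq hqMs hA u)
    D

end HRDiv

end Fermat.Agent.S43.Old.H35
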