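import Fermat.Agent.S43.Old.H75_FromHRdiv
import Fermat.Agent.S43.Old.H35_HRDiv
import Fermat.Agent.S44.BadP3

/-!
# S43 leaf OLD and S44 clause (c) `Stmt_OldP`: UNCONDITIONAL (helper75)

helper35's `H35.hr_div` (HR on all divisors, equality form) gives `Stmt_HRdiv`, hence

* `stmt_HRdiv_done : Stmt_HRdiv`;
* `old_done` : OLD for every prime `p` and every prime `q ∥ N` (`q = p` allowed);
* `stmt_Old_done : S43.BadQ.Stmt_Old`;
* `stmt_OldOdd_done : S43.BadQ.Stmt_OldOdd` (if available, see `BadQ`);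
* `stmt_OldP_done : S44.Stmt_OldP`.
-/

set_option autoImplicit false
set_option linter.style.haveILetI false
set_option linter.unusedSectionVars false
set_option synthInstance.maxHeartbeats 400000
set_option maxHeartbeats 1600000

noncomputable section

open AlgebraicCurve ModularCurve Fermat.Agent.S28.H73 Fermat.Agent.RED.H73
open Fermat.Agent.RED Fermat.Agent.BAD Fermat.Agent.S43.BadQ Fermat.Agent.S44

namespace Fermat.Agent.S43.Old

/-- **HR, divisor form**, at the good primes (helper35's `hr_div`). -/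
theorem stmt_HRdiv_done : Stmt_HRdiv := by
  intro M q ℓ _ _ hq hqM hℓ hℓM hℓq A hA hα' hβ' _ hα hβ _ r hr hm Dz
  rw [H35.hr_div A q M ℓ hq hℓ hℓq hqM hA hα hβ hα' hβ' r hr hm Dz, sub_self]
  exact (Divisor.principal (K := kV A) (F := ↥(H35.Ft A M))).zero_mem

/-- **OLD**, unconditional (general form: `p` any prime, `q ∥ N`, `q = p` allowed). -/
theorem old_done
    (p : ℕ) (hp : p.Prime) (N : ℕ) [NeZero N] (q : ℕ) (hq : q.Prime) (hqN : q ∣ N)
    (hq2 : ¬ q ^ 2 ∣ N) (A : ValuationSubring (AlgebraicClosure ℚ)) (hA : A.LiesOverPrime q)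
    (S : Finset ℕ) (t : ℕ → ℤ) (x : (jzModule N p).J)
    (hF : Fin1 A N p (jzModule.pt N p x)) (hK : ¬ InK1 A N p (jzModule.pt N p x))
    (hT : ∀ ℓ : ℕ, ℓ.Prime → ℓ ∉ S → ¬ ℓ ∣ N → ℓ ≠ p →
      (jzModule N p).T ℓ x = ((t ℓ : ℤ) : ZMod p) • x) :
    ∃ (g : CuspForm (CongruenceSubgroup.Gamma0 (N / q)) 2) (𝔪 : Ideal ZBar),
      g.IsNormalizedEigenform ∧ 𝔪.IsMaximal ∧ (p : ZBar) ∈ 𝔪 ∧
      ∀ ℓ : ℕ, ℓ.Prime → ℓ ∉ S → ¬ ℓ ∣ N → ℓ ≠ p →
        ∃ a : ZBar, (a : ℂ) = ModularFormClass.qCoeff g ℓ ∧ a - ((t ℓ : ℤ) : ZBar) ∈ 𝔪 :=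
  old_of_HRdiv stmt_HRdiv_done p hp N q hq hqN hq2 A hA S t x hF hK hT

/-- **`S43.BadQ.Stmt_Old`**, unconditional. -/
theorem stmt_Old_done : Stmt_Old := stmt_Old_of_HRdiv stmt_HRdiv_done

/-- **`S44.Stmt_OldP`**, unconditional. -/
theorem stmt_OldP_done : Stmt_OldP := by
  intro p hp _ N _ hpN hp2 A hA S t x hF hK hT
  exact old_done p hp N p hp hpN hp2 A hA S t x hF hK hT

end Fermat.Agent.S43.Old
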