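import Fermat.Agent.S17.W2.H75_GeoFinal

/-!
# `J₀(N)(ℚ̄)` is a divisible group (helper75)

`divisible_all N n hn x : ∃ y : JZero N, n • y = x` for `n ≠ 0` and EVERY `x : JZero N`
(`S17.Stmt_divisible` is the same statement for the Galois-fixed points only; the proof does not
use the hypothesis).
-/

set_option autoImplicit false
set_option linter.style.haveILetI false
set_option linter.unusedSectionVars false

noncomputable section

namespace Fermat.Agent.S43.Old.H75

open AlgebraicCurve IntermediateField ModularCurve Fermat.Agent.GTor Fermat.Agent.S17.W2 Fermat.Agent.S17.W2.H75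

/-- **`J₀(N)(ℚ̄)` is divisible.** -/
theorem divisible_all (N n : ℕ) [NeZero N] (hn : n ≠ 0) (x : JZero N) :
    ∃ y : JZero N, n • y = x := by
  have : Algebra.IsAlgebraic ℚ (AlgebraicClosure ℚ) := AlgebraicClosure.isAlgebraic ℚ
  letI inst : Algebra (AlgebraicClosure ℚ) ℂ :=
    (IsAlgClosed.lift : AlgebraicClosure ℚ →ₐ[ℚ] ℂ).toRingHom.toAlgebra
  obtain ⟨S, hj, hstab, htrans⟩ := stmt_GEO ℂ N
  have hcore := stmt_Core_of S n (H56.stmt_FT1 _ _) (H41.stmt_FT4 _ _) (H41.stmt_FT5 _ _)
    (H41.stmt_FT6 _ _)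
    (isFF_complex N) hj big_complex hstab htrans (torsion_finite_complex N n hn)
  exact Fermat.Agent.S17.W2.H75.stmt_A N n hn hcore x

end Fermat.Agent.S43.Old.H75
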