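import Mathlib.Algebra.FreeAlgebra
import Mathlib.Algebra.Module.LinearMap.End
import Mathlib.Algebra.Algebra.Basic
import Mathlib.Data.Int.GCD
import Mathlib.Data.Nat.Prime.Basic
import Mathlib.RingTheory.Int.Basic

/-!
# S43, leaf OLD: the abstract part of the wiring (helper75)

* `red_lift_eq` : let `red : J → Y` be additive, `T i` endomorphisms of `J` which stabilise
  `ker red`, and `z : J` with `red (T i z) = t i • red z`.  Then for every noncommutative
  polynomial `P` in the `T i`: `red (P(T) z) = P(t) • red z`.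
* `dvd_of_smul_eq_zero` : if `y ≠ 0`, `p • y = 0`, `p` prime, and `n • y = 0`, then `p ∣ n`.
-/

set_option autoImplicit false

namespace Fermat.Agent.S43.Old.H75

section Lift

variable {ι J Y : Type*} [AddCommGroup J] [AddCommGroup Y]

/-- Evaluation of noncommutative polynomials is compatible with `red` on an eigenvector modulo
`ker red`. -/
theorem red_lift_eq (red : J →+ Y) (T : ι → Module.End ℤ J) (t : ι → ℤ)
    (hker : ∀ (i : ι) (u : J), red u = 0 → red (T i u) = 0)
    (z : J) (hz : ∀ i : ι, red (T i z) = t i • red z)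
    (P : FreeAlgebra ℤ ι) :
    ∀ (z' : J) (c : ℤ), red z' = c • red z →
      red (FreeAlgebra.lift ℤ T P z') = (FreeAlgebra.lift ℤ t P * c) • red z := by
  induction P using FreeAlgebra.induction with
  | grade0 a =>
    intro z' c hc
    rw [AlgHom.commutes, AlgHom.commutes, Module.algebraMap_end_apply, map_zsmul, hc,
      Algebra.algebraMap_self, RingHom.id_apply, mul_smul]
  | grade1 i =>
    intro z' c hc
    rw [FreeAlgebra.lift_ι_apply, FreeAlgebra.lift_ι_apply]
    have h1 : red (z' - c • z) = 0 := by rw [map_sub, map_zsmul, hc, sub_self]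
    have h2 := hker i _ h1
    rw [map_sub, map_sub, sub_eq_zero, map_zsmul, map_zsmul, hz i] at h2
    rw [h2, smul_smul, mul_comm]
  | mul a b iha ihb =>
    intro z' c hc
    rw [map_mul, map_mul, Module.End.mul_apply, iha _ _ (ihb z' c hc), mul_assoc]
  | add a b iha ihb =>
    intro z' c hc
    rw [map_add, map_add, LinearMap.add_apply, map_add, iha z' c hc, ihb z' c hc, add_mul,
      add_smul]

/-- Commutation with a group action passes to noncommutative polynomials. -/
theorem lift_smul_comm {G : Type*} [Group G] [DistribMulAction G J] (T : ι → Module.End ℤ J)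
    (hT : ∀ (i : ι) (σ : G) (x : J), T i (σ • x) = σ • T i x) (P : FreeAlgebra ℤ ι) :
    ∀ (σ : G) (x : J), FreeAlgebra.lift ℤ T P (σ • x) = σ • FreeAlgebra.lift ℤ T P x := by
  induction P using FreeAlgebra.induction with
  | grade0 a =>
    intro σ x
    rw [AlgHom.commutes, Module.algebraMap_end_apply, Module.algebraMap_end_apply]
    exact (smul_comm σ a x).symm
  | grade1 i =>
    intro σ x
    rw [FreeAlgebra.lift_ι_apply]
    exact hT i σ x
  | mul a b iha ihb =>
    intro σ x
    rw [map_mul, Module.End.mul_apply, Module.End.mul_apply, ihb, iha]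
  | add a b iha ihb =>
    intro σ x
    rw [map_add, LinearMap.add_apply, LinearMap.add_apply, iha, ihb, smul_add]

end Lift

/-- A non-zero element killed by the prime `p` and by `n`: `p ∣ n`. -/
theorem dvd_of_smul_eq_zero {Y : Type*} [AddCommGroup Y] {p : ℕ} (hp : p.Prime) {y : Y}
    (hy : y ≠ 0) (hpy : (p : ℤ) • y = 0) {n : ℤ} (hn : n • y = 0) : (p : ℤ) ∣ n := by
  by_contra hdvd
  have hcop : IsCoprime (p : ℤ) n :=
    (Prime.coprime_iff_not_dvd (Nat.prime_iff_prime_int.mp hp)).mpr hdvd
  obtain ⟨a, b, hab⟩ := hcop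
  apply hy
  have : (a * (p : ℤ) + b * n) • y = 0 := by
    rw [add_smul, mul_smul, mul_smul, hpy, hn, smul_zero, smul_zero, add_zero]
  rwa [hab, one_smul] at this

end Fermat.Agent.S43.Old.H75
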