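import Fermat.Agent.S43.Old.Defs
import Fermat.Agent.RED.H51_HRDefs
import Fermat.Agent.RED.H51_HKA

/-!
# S43, leaf OLD: `Stmt_KerStable` from `RED.H51.Stmt_HRcore` (helper75)

The kernel of the reduction map `redM : J₀(M) → Pic (F~_M)` is stable under the Hecke operators
(`heckeOperatorBar M s` is induced by the correspondence `heckeDivBar` on divisors).
-/

set_option autoImplicit false
set_option linter.style.haveILetI false
set_option linter.unusedSectionVars false
set_option synthInstance.maxHeartbeats 400000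
set_option maxHeartbeats 1600000

noncomputable section

open AlgebraicCurve ModularCurve Fermat.Agent.S28.H73 Fermat.Agent.RED.H73
open Fermat.Agent.RED

namespace Fermat.Agent.S43.Old.H75

/-- The kernel of `redM` is stable under all Hecke operators `T_s`, given `Stmt_HRcore`. -/
theorem redPic_heckeOperatorBar_eq_zero (hcore : H51.Stmt_HRcore) (M q : ℕ) [NeZero M]
    (hq : q.Prime) (hqM : ¬ q ∣ M) (A : ValuationSubring (AlgebraicClosure ℚ))
    (hA : A.LiesOverPrime q)
    (r : Place (AlgebraicClosure ℚ) ↥(modularFunctionFieldBar M) →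
        Place (kV A) ↥(redField A (modularFunctionFieldBar M) (hasScale_laurentBaseChange A M)))
    (hr : IsRed A (hasScale_laurentBaseChange A M) r)
    (hmove : HasMove A (hasScale_laurentBaseChange A M) r)
    (s : Nat.Primes) (z : JZero M)
    (hz : H36.redPic A (hasScale_laurentBaseChange A M) hr z = 0) :
    H36.redPic A (hasScale_laurentBaseChange A M) hr (heckeOperatorBar M s z) = 0 := by
  haveI : NeZero (s : ℕ) := ⟨s.2.ne_zero⟩
  obtain ⟨hα, hβ, hP, hfin, hFI, hNF⟩ := H51.stmt_HKA M (s : ℕ)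
  obtain ⟨D, rfl⟩ := Pic0.mk_surjective z
  rw [heckeOperatorBar_apply, heckeOperatorAlong_eq hα hβ hFI hfin hNF]
  have hmk : heckePic0Bar hα hβ hFI hfin hNF (Pic0.mk D)
      = Pic0.mk (Pic0.degZeroCorrespondence (heckeBetaBar (AlgebraicClosure ℚ) M (s : ℕ))
          (heckeAlphaBar (AlgebraicClosure ℚ) M (s : ℕ)) hβ hα hFI D) := rfl
  rw [hmk, H36.redPic_mk_eq_zero_iff]
  rw [H36.redPic_mk_eq_zero_iff] at hz
  exact hcore M q (s : ℕ) hq s.2 hqM A hA hα hβ r hr hmove
    (D : Divisor (AlgebraicClosure ℚ) ↥(modularFunctionFieldBar M)) hz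

/-- **KER** from `Stmt_HRcore`. -/
theorem stmt_KerStable_of (hcore : H51.Stmt_HRcore) : Stmt_KerStable := by
  intro M q _ hq hqM A hA r hr hmove ℓ _ _ z hz
  exact redPic_heckeOperatorBar_eq_zero hcore M q hq hqM A hA r hr hmove ℓ z hz

end Fermat.Agent.S43.Old.H75
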