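import Mathlib.Algebra.Group.Action.Defs
import Mathlib.Algebra.Module.Basic
import Mathlib.GroupTheory.GroupAction.Hom
import Mathlib.GroupTheory.Index
import Mathlib.GroupTheory.OrderOfElement

/-!
# S43, leaf OLD, package STAR (helper75): the abstract lemma

`J` a divisible abelian group with an action of a group `G`, `red : J →+ Y` a homomorphism,
`T` an endomorphism of `J` which commutes with `G` and kills the torsion of `J`.  If every
`x : J` is fixed by some `σ : G` such that `red` maps the `σ`-fixed points of `J` into a group of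
finite exponent, then `red ∘ T = 0`.

(`J = J₀(M)(ℚ̄)`, `G = G_ℚ`, `red` = reduction at a place over `q ∤ M`, `σ` = a power of a
Frobenius element fixing `x`: the `σ`-fixed classes reduce to the classes fixed by a power of
the Frobenius, a finite group.)
-/

set_option autoImplicit false
set_option linter.style.haveILetI false

namespace Fermat.Agent.S43.Old.H75

section Abs

variable {J Y G : Type*} [AddCommGroup J] [AddCommGroup Y] [Group G] [DistribMulAction G J]

/-- **STAR, abstract form.** -/
theorem star_abs (red : J →+ Y) (T : J →+ J)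
    (hdiv : ∀ n : ℕ, n ≠ 0 → ∀ x : J, ∃ y : J, n • y = x)
    (htors : ∀ n : ℕ, n ≠ 0 → ∀ x : J, n • x = 0 → T x = 0)
    (hcomm : ∀ (σ : G) (x : J), T (σ • x) = σ • T x)
    (hfix : ∀ x : J, ∃ (σ : G) (h : ℕ), h ≠ 0 ∧ σ • x = x ∧
      ∀ z : J, σ • z = z → h • red z = 0)
    (x : J) : red (T x) = 0 := by
  obtain ⟨σ, h, hh, hσx, hσ⟩ := hfix x
  obtain ⟨y, hy⟩ := hdiv h hh x
  -- `σ y - y` is torsion
  have h1 : h • (σ • y - y) = 0 := by
    rw [smul_sub, ← smul_comm σ h y, hy, hσx, sub_self]
  have h2 : T (σ • y - y) = 0 := htors h hh _ h1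
  have h3 : σ • T y = T y := by
    rw [map_sub, hcomm, sub_eq_zero] at h2
    exact h2
  have h4 := hσ (T y) h3
  rw [← hy, map_nsmul, map_nsmul]
  exact h4

end Abs

section Pow

variable {G : Type*} [Group G]

/-- A power of every element lies in a subgroup of finite index. -/
theorem exists_pow_mem (H : Subgroup G) [H.FiniteIndex] (a : G) : ∃ n : ℕ, 0 < n ∧ a ^ n ∈ H := by
  obtain ⟨n, hn, -, ha⟩ := Subgroup.exists_pow_mem_of_index_ne_zero (H := H)
    Subgroup.FiniteIndex.index_ne_zero a
  exact ⟨n, hn, ha⟩

end Pow

section Fixed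

variable {Y : Type*} [AddCommGroup Y]

/-- A finite set of fixed points of an additive map which contains all fixed points: they are
killed by one positive integer. -/
theorem exists_exponent_of_finite_fixed (φ : Y →+ Y) (hfin : {y : Y | φ y = y}.Finite) :
    ∃ h : ℕ, h ≠ 0 ∧ ∀ y : Y, φ y = y → h • y = 0 := by
  classical
  let H : AddSubgroup Y :=
    { carrier := {y | φ y = y}
      zero_mem' := map_zero φ
      add_mem' := fun {a b} ha hb => by
        show φ (a + b) = a + b
        rw [map_add, ha, hb]
      neg_mem' := fun {a} ha => by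
        show φ (-a) = -a
        rw [map_neg, ha] }
  haveI : Finite H := hfin.to_subtype
  refine ⟨Nat.card H, Nat.card_pos.ne', fun y hy => ?_⟩
  have h1 : Nat.card H • (⟨y, hy⟩ : H) = 0 := card_nsmul_eq_zero'
  exact congrArg Subtype.val h1

end Fixed

end Fermat.Agent.S43.Old.H75
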