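import Fermat.Agent.S43.Old.Defs
import Fermat.Agent.S43.Old.H75_StarAbs
import Fermat.Agent.S43.Old.H75_DivAll
import Fermat.Agent.RED.H36_EQ
import Fermat.Agent.RED.H17_LiftMove
import Fermat.Agent.RED.H73_GAFinal
import Fermat.Agent.L.H28_FrobFin
import Fermat.Agent.Lib.FrobExists
import Fermat.Agent.S17.H8_W14

/-!
# S43, leaf OLD, package STAR (helper75)

`stmt_Star : Stmt_Star`: an additive endomorphism `T` of `J₀(M)(ℚ̄)` which commutes with `G_ℚ`
and kills the torsion satisfies `redM ∘ T = 0`, `redM` the reduction modulo a place over `q ∤ M`.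

Proof (`star_abs`): `x` is fixed by an open subgroup `G_L` (W4); a power `σ = σ₀ⁿ` of a Frobenius
element at `A` lies in `G_L`; the reduction map is equivariant for `σ` and the coefficientwise
`qⁿ`-Frobenius `gt` of the reduced field (`stmt_EQ`); the `gt`-fixed classes of `Pic⁰` form a
finite group (`L.H28.stmt_FrobFin`), of exponent `h`; `J₀(M)(ℚ̄)` is divisible (S17-W2).
-/

set_option autoImplicit false
set_option linter.style.haveILetI false
set_option linter.unusedSectionVars false
set_option synthInstance.maxHeartbeats 400000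
set_option maxHeartbeats 1600000

noncomputable section

open AlgebraicCurve ModularCurve Fermat.Agent.S28.H73 Fermat.Agent.RED.H73
open Fermat.Agent.RED

namespace Fermat.Agent.S43.Old.H75

section Abs

variable {C : Type} [Field C] (O : ValuationSubring C)
variable {F : IntermediateField C (LaurentSeries C)} (h : HasScale O F)
variable {r : Place C ↥F → Place (kV O) ↥(redField O F h)}

/-- If `r` is equivariant for `(g, gt)` and the `gt`-fixed classes of `Pic⁰` of the reduced field
are killed by `n`, then the reduction of every `g`-fixed class is killed by `n`. -/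
theorem redPic_nsmul_eq_zero_of_fixed (hr : IsRed O h r)
    (hdeg : ∀ v : Place C ↥F, v.deg = 1)
    (hdeg' : ∀ v : Place (kV O) ↥(redField O F h), v.deg = 1)
    (g : SemilinearAut C ↥F) (gt : SemilinearAut (kV O) ↥(redField O F h))
    (hgr : ∀ P : Place C ↥F, r (g • P) = gt • r P)
    (n : ℕ) (hn : ∀ y : Pic0 (kV O) ↥(redField O F h), gt • y = y → n • y = 0)
    (z : Pic0 C ↥F) (hz : g • z = z) : n • H36.redPic O h hr z = 0 := by
  obtain ⟨D, rfl⟩ := Pic0.mk_surjective z
  have hD0 : Divisor.degree (D : Divisor C ↥F) = 0 := Divisor.mem_degZero.mp D.2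
  have hD' : Finsupp.mapDomain r (D : Divisor C ↥F)
      ∈ Divisor.degZero (K := kV O) (F := ↥(redField O F h)) := by
    rw [Divisor.mem_degZero, H17.degree_mapDomain hdeg hdeg', hD0]
  -- `g D - D` is principal
  have h1 : -(g • (D : Divisor C ↥F)) + (D : Divisor C ↥F)
      ∈ Divisor.principal (K := C) (F := ↥F) := by
    rw [SemilinearAut.pic0_smul_mk] at hz
    have h2 := (QuotientAddGroup.eq (s := (Divisor.principal (K := C) (F := ↥F)).addSubgroupOf
      (Divisor.degZero (K := C) (F := ↥F)))).mp hz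
    rw [AddSubgroup.mem_addSubgroupOf] at h2
    exact h2
  have h3 := H36.mapDomain_mem_principal O h hr h1
  have e1 : Finsupp.mapDomain r (-(g • (D : Divisor C ↥F)))
      = -(Finsupp.mapDomain r (g • (D : Divisor C ↥F))) :=
    map_neg (Finsupp.mapDomain.addMonoidHom r) _
  have e2 : Finsupp.mapDomain r (g • (D : Divisor C ↥F))
      = gt • Finsupp.mapDomain r (D : Divisor C ↥F) := by
    rw [SemilinearAut.divisor_smul_def, SemilinearAut.divisor_smul_def,
      ← Finsupp.mapDomain_comp, ← Finsupp.mapDomain_comp]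
    congr 1
    funext P
    exact hgr P
  rw [Finsupp.mapDomain_add, e1, e2] at h3
  -- the class of `r_* D` is fixed by `gt`
  have hy : gt • Pic0.mk (⟨Finsupp.mapDomain r (D : Divisor C ↥F), hD'⟩ :
      Divisor.degZero (K := kV O) (F := ↥(redField O F h)))
      = Pic0.mk ⟨Finsupp.mapDomain r (D : Divisor C ↥F), hD'⟩ := by
    rw [SemilinearAut.pic0_smul_mk]
    refine (QuotientAddGroup.eq (s := (Divisor.principal (K := kV O)
      (F := ↥(redField O F h))).addSubgroupOf
      (Divisor.degZero (K := kV O) (F := ↥(redField O F h))))).mpr ?_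
    rw [AddSubgroup.mem_addSubgroupOf]
    exact h3
  have h4 := hn _ hy
  have h5 : n • (⟨Finsupp.mapDomain r (D : Divisor C ↥F), hD'⟩ :
      Divisor.degZero (K := kV O) (F := ↥(redField O F h)))
      ∈ (Divisor.principal (K := kV O) (F := ↥(redField O F h))).addSubgroupOf
        (Divisor.degZero (K := kV O) (F := ↥(redField O F h))) :=
    (QuotientAddGroup.eq_zero_iff _).mp h4
  rw [AddSubgroup.mem_addSubgroupOf] at h5
  rw [H36.redPic_mk]
  exact (QuotientAddGroup.eq_zero_iff _).mpr h5

end Abs

section Frob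

/-- The residual action of a power of a Frobenius element. -/
theorem frob_pow_smul (A : ValuationSubring (AlgebraicClosure ℚ))
    {σ₀ : AlgebraicClosure ℚ ≃ₐ[ℚ] AlgebraicClosure ℚ} {q : ℕ}
    (hσ₀ : A.IsFrobeniusAt σ₀ q) (n : ℕ) (hn : σ₀ ^ n ∈ A.decompositionSubgroup ℚ) (a : kV A) :
    (⟨σ₀ ^ n, hn⟩ : A.decompositionSubgroup ℚ) • a = a ^ (q ^ n) := by
  induction n generalizing a with
  | zero =>
    have h1 : (⟨σ₀ ^ 0, hn⟩ : A.decompositionSubgroup ℚ) = 1 := Subtype.ext (pow_zero σ₀)
    rw [h1, one_smul, pow_zero, pow_one]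
  | succ n ih =>
    have hn' : σ₀ ^ n ∈ A.decompositionSubgroup ℚ :=
      Subgroup.pow_mem _ hσ₀.mem_decompositionSubgroup n
    have h1 : (⟨σ₀ ^ (n + 1), hn⟩ : A.decompositionSubgroup ℚ)
        = ⟨σ₀ ^ n, hn'⟩ * ⟨σ₀, hσ₀.mem_decompositionSubgroup⟩ := Subtype.ext (pow_succ σ₀ n)
    rw [h1, mul_smul, hσ₀.smul_residue_eq, ih hn', ← pow_mul, pow_succ, mul_comm]

end Frob

/-- **STAR.** -/
theorem stmt_Star : Stmt_Star := by
  intro M q _ hq hqM A hA r hr T hcomm htors x
  haveI : IsAlgClosed (kV A) := isAlgClosed_kV A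
  have hFF := H95.stmt_HKA_isFF M
  have hFt := isFF_redField_bar M q hq hqM A hA
  have H := H17.ffHyp_of_isFF _ _ hFF
  have Ht := H17.ffHyp_of_isFF _ _ hFt
  obtain ⟨g, c, hg⟩ := H17.exists_isGenus _ _ hFt
  obtain ⟨σ₀, hσ₀⟩ := Fermat.Agent.Lib.FrobExists.exists_isFrobeniusAt q hq A hA
  refine star_abs (G := AlgebraicClosure ℚ ≃ₐ[ℚ] AlgebraicClosure ℚ)
    (H36.redPic A (hasScale_laurentBaseChange A M) hr) T
    (fun n hn y => divisible_all M n hn y) htors hcomm ?_ x
  intro x
  obtain ⟨L, hL, hLx⟩ := Fermat.Agent.S17.H8.stmt_open_stab M x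
  have halg : Algebra.IsAlgebraic ℚ (AlgebraicClosure ℚ) := AlgebraicClosure.isAlgebraic ℚ
  have halc : IsAlgClosure ℚ (AlgebraicClosure ℚ) := ⟨inferInstance, inferInstance⟩
  have hgal : IsGalois ℚ (AlgebraicClosure ℚ) := inferInstance
  have hfi : L.fixingSubgroup.FiniteIndex := by
    rw [Subgroup.finiteIndex_iff, ← IntermediateField.finrank_eq_fixingSubgroup_index]
    exact Module.finrank_pos.ne'
  obtain ⟨n, hn0, hn⟩ := exists_pow_mem L.fixingSubgroup σ₀
  have hσD : σ₀ ^ n ∈ A.decompositionSubgroup ℚ :=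
    Subgroup.pow_mem _ hσ₀.mem_decompositionSubgroup n
  obtain ⟨gt, hcoeff, hgr⟩ := H36.stmt_EQ M q hq hqM A hA r hr (σ₀ ^ n) hσD
  have hQ : 1 < q ^ n := Nat.one_lt_pow hn0.ne' hq.one_lt
  have hbase : ∀ a : kV A, SemilinearAut.baseAut gt a = a ^ (q ^ n) := by
    intro a
    have h1 := SemilinearAut.smul_algebraMap gt a
    have h2 : ((gt • algebraMap (kV A) ↥(redField A (modularFunctionFieldBar M)
        (hasScale_laurentBaseChange A M)) a : ↥(redField A (modularFunctionFieldBar M)
        (hasScale_laurentBaseChange A M))) : LaurentSeries (kV A)).coeff 0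
        = ((algebraMap (kV A) ↥(redField A (modularFunctionFieldBar M)
        (hasScale_laurentBaseChange A M)) (SemilinearAut.baseAut gt a) :
        ↥(redField A (modularFunctionFieldBar M)
        (hasScale_laurentBaseChange A M))) : LaurentSeries (kV A)).coeff 0 := by
      rw [h1]
    rw [hcoeff] at h2
    have h3 : ∀ b : kV A, ((algebraMap (kV A) ↥(redField A (modularFunctionFieldBar M)
        (hasScale_laurentBaseChange A M)) b : ↥(redField A (modularFunctionFieldBar M)
        (hasScale_laurentBaseChange A M))) : LaurentSeries (kV A)).coeff 0 = b := by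
      intro b
      show (algebraMap (kV A) (LaurentSeries (kV A)) b).coeff 0 = b
      rw [algebraMap_kV]
      simp
    rw [h3, h3, frob_pow_smul A hσ₀ n hσD] at h2
    exact h2.symm
  have hxfix : ∃ y : ↥(redField A (modularFunctionFieldBar M) (hasScale_laurentBaseChange A M)),
      y ∉ Set.range (algebraMap (kV A) ↥(redField A (modularFunctionFieldBar M)
        (hasScale_laurentBaseChange A M))) ∧ gt • y = y := by
    have hmem : jqModC (kV A) ∈ redField A (modularFunctionFieldBar M)
        (hasScale_laurentBaseChange A M) := by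
      rw [stmt_GA M q hq hqM A hA]
      exact jqModC_mem_full (kV A) M
    refine ⟨⟨jqModC (kV A), hmem⟩, ?_, ?_⟩
    · rintro ⟨b, hb⟩
      have h1 : ((algebraMap (kV A) ↥(redField A (modularFunctionFieldBar M)
          (hasScale_laurentBaseChange A M)) b : ↥(redField A (modularFunctionFieldBar M)
          (hasScale_laurentBaseChange A M))) : LaurentSeries (kV A)).coeff (-1)
          = (jqModC (kV A)).coeff (-1) := by
        rw [hb]
      have h2 : ((algebraMap (kV A) ↥(redField A (modularFunctionFieldBar M)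
          (hasScale_laurentBaseChange A M)) b : ↥(redField A (modularFunctionFieldBar M)
          (hasScale_laurentBaseChange A M))) : LaurentSeries (kV A)).coeff (-1) = 0 := by
        show (algebraMap (kV A) (LaurentSeries (kV A)) b).coeff (-1) = 0
        rw [algebraMap_kV]
        simp
      rw [h2, coeff_jqModC_neg_one] at h1
      exact zero_ne_one h1
    · apply Subtype.ext
      ext m
      rw [hcoeff]
      show (⟨σ₀ ^ n, hσD⟩ : A.decompositionSubgroup ℚ) • (jqModC (kV A)).coeff m
        = (jqModC (kV A)).coeff m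
      rw [coeff_jqModC_eq_intCast]
      exact map_intCast (MulSemiringAction.toRingHom (A.decompositionSubgroup ℚ) (kV A)
        ⟨σ₀ ^ n, hσD⟩) _
  have hfin := Fermat.Agent.L.H28.stmt_FrobFin (kV A) _ Ht g c hg gt (q ^ n) hQ hbase hxfix
  obtain ⟨h, hh0, hh⟩ := exists_exponent_of_finite_fixed
    (DistribSMul.toAddMonoidHom (Pic0 (kV A) ↥(redField A (modularFunctionFieldBar M)
      (hasScale_laurentBaseChange A M))) gt) hfin
  refine ⟨σ₀ ^ n, h, hh0, hLx _ hn, fun z hz => ?_⟩
  exact redPic_nsmul_eq_zero_of_fixed A (hasScale_laurentBaseChange A M) hr H.deg_one Ht.deg_one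
    (arithmeticGalois (modularFunctionFieldFull M) (σ₀ ^ n)) gt hgr h (fun y hy => hh y hy) z hz

end Fermat.Agent.S43.Old.H75
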