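import Fermat.Agent.S43.Old.Wire
import Fermat.Agent.S43.Old.H75_Star
import Fermat.Agent.S43.Old.H75_Ker
import Fermat.Agent.L.LiftEig.H37_TorsRel
import Fermat.Agent.L.LiftEig.H46_CharMStmt

/-!
# S43, leaf OLD (= LIFT-EIG): OLD from the two open leaves (helper75)

STAR (`H75.stmt_Star`), TORS-REL (`L.LiftEig.H37.stmt_TorsRel`, helper37) and CHAR-M
(`L.LiftEig.H46.stmt_CharM`, helper46) are proved.  Open: OLD-RED (helper35) and
`RED.H51.Stmt_HRcore` (helper95, helper51, helper11).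

* `old_of` : `Stmt_OldRed → Stmt_HRcore →` OLD for every prime `p` and every prime `q ∥ N`;
* `stmt_Old_of` : `Stmt_OldRed → Stmt_HRcore → S43.BadQ.Stmt_Old`.
-/

set_option autoImplicit false
set_option synthInstance.maxHeartbeats 400000
set_option maxHeartbeats 1600000

noncomputable section

open AlgebraicCurve ModularCurve Fermat.Agent.S28.H73 Fermat.Agent.RED.H73
open Fermat.Agent.RED Fermat.Agent.BAD Fermat.Agent.S43.BadQ Fermat.Agent.S44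

namespace Fermat.Agent.S43.Old

/-- **OLD** (general form) from OLD-RED and HRcore. -/
theorem old_of (hOR : Stmt_OldRed) (hcore : H51.Stmt_HRcore)
    (p : ℕ) (hp : p.Prime) (N : ℕ) [NeZero N] (q : ℕ) (hq : q.Prime) (hqN : q ∣ N)
    (hq2 : ¬ q ^ 2 ∣ N) (A : ValuationSubring (AlgebraicClosure ℚ)) (hA : A.LiesOverPrime q)
    (S : Finset ℕ) (t : ℕ → ℤ) (x : (jzModule N p).J)
    (hF : Fin1 A N p (jzModule.pt N p x)) (hK : ¬ InK1 A N p (jzModule.pt N p x))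
    (hT : ∀ ℓ : ℕ, ℓ.Prime → ℓ ∉ S → ¬ ℓ ∣ N → ℓ ≠ p →
      (jzModule N p).T ℓ x = ((t ℓ : ℤ) : ZMod p) • x) :
    ∃ (g : CuspForm (CongruenceSubgroup.Gamma0 (N / q)) 2) (𝔪 : Ideal ZBar),
      g.IsNormalizedEigenform ∧ 𝔪.IsMaximal ∧ (p : ZBar) ∈ 𝔪 ∧
      ∀ ℓ : ℕ, ℓ.Prime → ℓ ∉ S → ¬ ℓ ∣ N → ℓ ≠ p →
        ∃ a : ZBar, (a : ℂ) = ModularFormClass.qCoeff g ℓ ∧ a - ((t ℓ : ℤ) : ZBar) ∈ 𝔪 :=
  old_of_leaves hOR H75.stmt_Star (H75.stmt_KerStable_of hcore)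
    Fermat.Agent.L.LiftEig.H37.stmt_TorsRel Fermat.Agent.L.LiftEig.H46.stmt_CharM
    p hp N q hq hqN hq2 A hA S t x hF hK hT

/-- **`S43.BadQ.Stmt_Old`** from OLD-RED and HRcore. -/
theorem stmt_Old_of (hOR : Stmt_OldRed) (hcore : H51.Stmt_HRcore) : Stmt_Old :=
  stmt_Old_of_leaves hOR H75.stmt_Star (H75.stmt_KerStable_of hcore)
    Fermat.Agent.L.LiftEig.H37.stmt_TorsRel Fermat.Agent.L.LiftEig.H46.stmt_CharM

end Fermat.Agent.S43.Old
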