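import Fermat.Agent.S43.Old.H35_LevelN

/-!
# S43, leaf OLD-RED (helper35): the eigen-transfer at the level `N = M q`

* `levelN_eigen` : if `p D = div f`, `f` a unit of the Gauss valuation ring `V₁` of level
  `N = M q`, `p D' = div (res f)` on `F~_M` and `T_ℓ D - t D` is principal, then
  `T~_ℓ D' - t D'` is principal (`T~_ℓ` the correspondence of the reduced tower).
-/

set_option autoImplicit false
set_option linter.style.haveILetI false
set_option linter.unusedSectionVars false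
set_option synthInstance.maxHeartbeats 400000
set_option maxHeartbeats 1000000

noncomputable section

open AlgebraicCurve ModularCurve Fermat.Agent.S28.H73 Fermat.Agent.RED.H73 Fermat.Agent.RED
open Fermat.Agent.BAD

namespace Fermat.Agent.S43.Old.H35

section Eigen

variable (A : ValuationSubring (AlgebraicClosure ℚ))

/-- The degeneracy maps of the reduced fields are determined by their values. -/
theorem eq_alphaT (M ℓ : ℕ) [NeZero M] [NeZero ℓ]
    (α' : ↥(Ft A M) →ₐ[kV A] ↥(Ft A (M * ℓ)))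
    (hα'c : ∀ x : ↥(Ft A M), ((α' x : ↥(Ft A (M * ℓ))) : LaurentSeries (kV A))
      = (x : LaurentSeries (kV A))) : α' = alphaT A M ℓ :=
  AlgHom.ext fun x => Subtype.ext (by rw [hα'c, coe_alphaT])

theorem eq_betaT (M ℓ : ℕ) [NeZero M] [NeZero ℓ]
    (β' : ↥(Ft A M) →ₐ[kV A] ↥(Ft A (M * ℓ)))
    (hβ'c : ∀ x : ↥(Ft A M), ((β' x : ↥(Ft A (M * ℓ))) : LaurentSeries (kV A))
      = qExpand (kV A) ℓ (x : LaurentSeries (kV A))) : β' = betaT A M ℓ :=
  AlgHom.ext fun x => Subtype.ext (by rw [hβ'c, coe_betaT])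

/-- **The eigen-transfer at the level `N = M q`**, for the Hecke tower `alphaT`, `betaT` of the
reduced fields. -/
theorem levelN_eigen_T (p : ℕ) (hp : p ≠ 0) (q M ℓ : ℕ) [NeZero M] [NeZero (M * q)] [NeZero ℓ]
    (hq : q.Prime) (hqM : ¬ q ∣ M) (hℓ : ℓ.Prime) (hℓN : ¬ ℓ ∣ M * q)
    (hA : A.LiesOverPrime q)
    (hα : HeckeAlphaBarIntegral (AlgebraicClosure ℚ) (M * q) ℓ)
    (hβ : HeckeBetaBarIntegral (AlgebraicClosure ℚ) (M * q) ℓ)
    [HasPrincipalDivisors (AlgebraicClosure ℚ) ↥(modularFunctionFieldBar (M * q * ℓ))]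
    (hα' : (alphaT A M ℓ).toRingHom.IsIntegral) (hβ' : (betaT A M ℓ).toRingHom.IsIntegral)
    [HasPrincipalDivisors (kV A) ↥(Ft A (M * ℓ))]
    (D : Divisor (AlgebraicClosure ℚ) ↥(FNbar (M * q))) (f : ↥(gaussV A (M * q)))
    (hf : gaussRes A (M * q) f ≠ 0)
    (hD : ∀ P : Place (AlgebraicClosure ℚ) ↥(FNbar (M * q)),
      (p : ℤ) * D P = P.ord (f : ↥(FNbar (M * q))))
    (g : ↥(Ft A M))
    (hg : (g : LaurentSeries (kV A)) = (gaussRes A (M * q) f : LaurentSeries (kV A)))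
    (D' : Divisor (kV A) ↥(Ft A M)) (hD' : ∀ Q : Place (kV A) ↥(Ft A M), (p : ℤ) * D' Q = Q.ord g)
    (t : ℤ) (heig : Divisor.IsPrincipal (heckeDivBar hα hβ D - t • D)) :
    Divisor.IsPrincipal (K := kV A) (F := ↥(Ft A M))
      (Divisor.correspondence (betaT A M ℓ) (alphaT A M ℓ) hβ' hα' D' - t • D') := by
  haveI : IsAlgClosed (AlgebraicClosure ℚ) := inferInstance
  have hℓq : ℓ ≠ q := fun h => hℓN (h ▸ dvd_mul_left ℓ M)
  have hqMℓ : ¬ q ∣ M * ℓ := by
    intro h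
    rcases (Nat.Prime.dvd_mul hq).1 h with h1 | h1
    · exact hqM h1
    · exact hℓq ((Nat.prime_dvd_prime_iff_eq hq hℓ).1 h1).symm
  have hle : Ft A (M * q) ≤ Ft A M := (ft_mul_eq A q M hq hqM hA).le
  obtain ⟨-, -, -, hfin, -, hNF⟩ := RED.H51.stmt_HKA (M * q) ℓ
  have TI := towerInputs (A := A) (M := M) (ℓ := ℓ) hq hA hqMℓ
  have e1 : ((gaussRes A (M * q) f : ↥(Ft A (M * q))) : LaurentSeries (kV A))
      = gaussResF A (hasScale_laurentBaseChange A (M * q)) f := rfl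
  have hgf : g = resTo A (M * q) (Ft A M) hle f :=
    Subtype.ext (hg.trans (e1.trans (coe_resTo A (M * q) (Ft A M) hle f).symm))
  have hf0 : gaussResF A (hasScale_laurentBaseChange A (M * q)) f ≠ 0 := by
    intro h0
    apply hf
    apply Subtype.ext
    rw [e1, h0]
    rfl
  have hf' : resTo A (M * q) (Ft A M) hle f ≠ 0 := by
    intro h0
    rw [resTo_eq_zero_iff] at h0
    exact h0 ((isUnit_iff_gaussResF_ne_zero A (hasScale_laurentBaseChange A (M * q)) f).2 hf0)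
  subst hgf
  exact tilde_eigen_of_eigen
    (fun u hu hord => H36.const_of_ord_eq_zero (Fermat.Agent.RED.H95.stmt_HKA_isFF (M * q)) u hu hord)
    (heckeAlphaBar (AlgebraicClosure ℚ) (M * q) ℓ) (heckeBetaBar (AlgebraicClosure ℚ) (M * q) ℓ)
    hα hβ hfin hNF (alphaT A M ℓ) (betaT A M ℓ) hα' hβ' TI.hfin TI.hNF
    (gaussV A (M * q)) (resTo A (M * q) (Ft A M) hle)
    (fun u => resTo_eq_zero_iff A _ _ hle u)
    (fun u hu => resTo_scale A _ _ hle u hu)
    (fun c h => resTo_const A _ _ hle c h)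
    (fun u => hnorm_levelN A q M ℓ hq hqM hℓ hℓN hA hle u)
    p hp t D f hf' hD D' hD' heig

/-- **The eigen-transfer at the level `N = M q`**, for any realisation `α'`, `β'` of the
degeneracy maps of the reduced fields (inclusion and `t ↦ t ^ ℓ`). -/
theorem levelN_eigen (p : ℕ) (hp : p ≠ 0) (q M ℓ : ℕ) [NeZero M] [NeZero (M * q)] [NeZero ℓ]
    (hq : q.Prime) (hqM : ¬ q ∣ M) (hℓ : ℓ.Prime) (hℓN : ¬ ℓ ∣ M * q)
    (hA : A.LiesOverPrime q)
    (hα : HeckeAlphaBarIntegral (AlgebraicClosure ℚ) (M * q) ℓ)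
    (hβ : HeckeBetaBarIntegral (AlgebraicClosure ℚ) (M * q) ℓ)
    [HasPrincipalDivisors (AlgebraicClosure ℚ) ↥(modularFunctionFieldBar (M * q * ℓ))]
    (α' β' : ↥(Ft A M) →ₐ[kV A] ↥(Ft A (M * ℓ)))
    (hα'c : ∀ x : ↥(Ft A M), ((α' x : ↥(Ft A (M * ℓ))) : LaurentSeries (kV A))
      = (x : LaurentSeries (kV A)))
    (hβ'c : ∀ x : ↥(Ft A M), ((β' x : ↥(Ft A (M * ℓ))) : LaurentSeries (kV A))
      = qExpand (kV A) ℓ (x : LaurentSeries (kV A)))
    (hα' : α'.toRingHom.IsIntegral) (hβ' : β'.toRingHom.IsIntegral)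
    [HasPrincipalDivisors (kV A) ↥(Ft A (M * ℓ))]
    (D : Divisor (AlgebraicClosure ℚ) ↥(FNbar (M * q))) (f : ↥(gaussV A (M * q)))
    (hf : gaussRes A (M * q) f ≠ 0)
    (hD : ∀ P : Place (AlgebraicClosure ℚ) ↥(FNbar (M * q)),
      (p : ℤ) * D P = P.ord (f : ↥(FNbar (M * q))))
    (g : ↥(Ft A M))
    (hg : (g : LaurentSeries (kV A)) = (gaussRes A (M * q) f : LaurentSeries (kV A)))
    (D' : Divisor (kV A) ↥(Ft A M)) (hD' : ∀ Q : Place (kV A) ↥(Ft A M), (p : ℤ) * D' Q = Q.ord g)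
    (t : ℤ) (heig : Divisor.IsPrincipal (heckeDivBar hα hβ D - t • D)) :
    Divisor.IsPrincipal (K := kV A) (F := ↥(Ft A M))
      (Divisor.correspondence β' α' hβ' hα' D' - t • D') := by
  obtain rfl := eq_alphaT A M ℓ α' hα'c
  obtain rfl := eq_betaT A M ℓ β' hβ'c
  exact levelN_eigen_T A p hp q M ℓ hq hqM hℓ hℓN hA hα hβ hα' hβ' D f hf hD g hg D' hD' t heig

end Eigen

end Fermat.Agent.S43.Old.H35
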