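import Fermat.Agent.S43.Old.H75_OldRedAsm
import Fermat.Agent.S43.Old.H35_Eigen
import Fermat.Agent.S43.Old.H35_HRDiv

/-!
# S43, leaf OLD-RED (helper35): the final statement

* `stmt_HeckeRed : Stmt_HeckeRed` : the Hecke compatibility of the two reductions, with
  `T~_ℓ = Divisor.correspondence (betaT A M ℓ) (alphaT A M ℓ)`: level `M` by `hr_div`
  (`r_* T_ℓ = T~_ℓ r_*` on all divisors), level `N = M q` by `levelN_eigen_T` (NORM-RED);
* `stmt_OldRed : Stmt_OldRed` : by helper75's assembly `stmt_OldRed_of_heckeRed`.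
-/

set_option autoImplicit false
set_option linter.style.haveILetI false
set_option linter.unusedSectionVars false
set_option synthInstance.maxHeartbeats 400000
set_option maxHeartbeats 1000000

noncomputable section

open AlgebraicCurve ModularCurve Fermat.Agent.S28.H73 Fermat.Agent.RED.H73 Fermat.Agent.RED
open Fermat.Agent.BAD

namespace Fermat.Agent.S43.Old.H35

/-- **HECKE-RED.** -/
theorem stmt_HeckeRed : Fermat.Agent.S43.Old.Stmt_HeckeRed := by
  intro p hp M q ℓ _ _ _ hq hqM hℓ hℓN A hA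
  have hℓq : ℓ ≠ q := fun h => hℓN (h ▸ dvd_mul_left ℓ M)
  have hqMℓ : ¬ q ∣ M * ℓ := by
    intro h
    rcases (Nat.Prime.dvd_mul hq).1 h with h1 | h1
    · exact hqM h1
    · exact hℓq ((Nat.prime_dvd_prime_iff_eq hq hℓ).1 h1).symm
  have TI := towerInputs (A := A) (M := M) (ℓ := ℓ) hq hA hqMℓ
  haveI := TI.hP
  refine ⟨Divisor.correspondence (betaT A M ℓ) (alphaT A M ℓ) TI.hβ TI.hα, ?_, ?_⟩
  · intro hα hβ _ r hr hm Dz
    rw [hr_div A q M ℓ hq hℓ hℓq hqM hA hα hβ TI.hα TI.hβ r hr hm Dz, sub_self]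
    exact ⟨1, one_ne_zero, fun v => by simp⟩
  · intro hα hβ _ D f hf hD g hg D' hD' t heig
    exact levelN_eigen_T A p hp.ne_zero q M ℓ hq hqM hℓ hℓN hA hα hβ TI.hα TI.hβ D f hf hD
      g hg D' hD' t heig

/-- **OLD-RED.** -/
theorem stmt_OldRed : Fermat.Agent.S43.Old.Stmt_OldRed :=
  Fermat.Agent.S43.Old.stmt_OldRed_of_heckeRed stmt_HeckeRed

end Fermat.Agent.S43.Old.H35
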