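import Fermat.Agent.S43.Old.Final
import Fermat.Agent.S44.BadP3

/-!
# S44, clause (c) `Stmt_OldP` from the OLD assembly with `q := p` (helper75)

`stmt_OldP_of : Stmt_OldRed → RED.H51.Stmt_HRcore → S44.Stmt_OldP`.
-/

set_option autoImplicit false
set_option synthInstance.maxHeartbeats 400000
set_option maxHeartbeats 1600000

noncomputable section

open AlgebraicCurve ModularCurve Fermat.Agent.S28.H73 Fermat.Agent.RED.H73
open Fermat.Agent.RED Fermat.Agent.BAD Fermat.Agent.S43.BadQ Fermat.Agent.S44

namespace Fermat.Agent.S43.Old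

/-- **`S44.Stmt_OldP`** from OLD-RED and HRcore. -/
theorem stmt_OldP_of (hOR : Stmt_OldRed) (hcore : H51.Stmt_HRcore) : Stmt_OldP := by
  intro p hp _ N _ hpN hp2 A hA S t x hF hK hT
  exact old_of hOR hcore p hp N p hp hpN hp2 A hA S t x hF hK hT

end Fermat.Agent.S43.Old
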