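import Fermat.Agent.RED.H36_FinAbs
import Fermat.Prelude.Def_ModularCurve_HeckeModule

/-!
# S43, leaf OLD (= LIFT-EIG): interface statements, light part  (helper75)

Target: `Fermat.Agent.S43.BadQ.Stmt_Old` (`S43/BadQ.lean`).  Route: `NOTES/plan/lead_LIFT_test.md`
§3, architecture note "OLD (S43) architecture v1".

Setting: `N = M q`, `q ∤ M`, `A` a valuation ring of `ℚ̄` over `q`, `r` the reduction map of places
of `F_M · ℚ̄` (`IsRed`), `redM = H36.redPic A _ hr : J₀(M) → Pic (F~_M)`.

* `Stmt_Star`      **(STAR)** : an endomorphism of `J₀(M)` which commutes with `G_ℚ` and kills the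
                     torsion is zero after reduction modulo `q ∤ M`;
* `Stmt_KerStable` **(KER)** : the kernel of `redM` is stable under the good `T_ℓ`.

The algebraic leaves `Stmt_TorsRel`, `Stmt_CharM` are in `L/LiftEig/Defs.lean` (helper37), the
geometric leaf `Stmt_OldRed` and the wiring in `S43/Old/DefsRed.lean`, `S43/Old/Wire.lean`.
This file contains definitions only.
-/

set_option autoImplicit false
set_option synthInstance.maxHeartbeats 400000
set_option maxHeartbeats 1000000

noncomputable section

open AlgebraicCurve ModularCurve Fermat.Agent.S28.H73 Fermat.Agent.RED.H73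
open Fermat.Agent.RED

namespace Fermat.Agent.S43.Old

/-- **STAR.**  Let `q ∤ M`, `A` over `q`, `r` a reduction map of places with the conservation law.
An additive endomorphism `T` of `J₀(M)(ℚ̄)` which commutes with `G_ℚ` and kills every torsion
point satisfies `redM ∘ T = 0`. -/
def Stmt_Star : Prop :=
  ∀ (M q : ℕ) [NeZero M], q.Prime → ¬ q ∣ M →
    ∀ A : ValuationSubring (AlgebraicClosure ℚ), A.LiesOverPrime q →
    ∀ (r : Place (AlgebraicClosure ℚ) ↥(modularFunctionFieldBar M) →
        Place (kV A) ↥(redField A (modularFunctionFieldBar M) (hasScale_laurentBaseChange A M)))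
      (hr : IsRed A (hasScale_laurentBaseChange A M) r),
    ∀ T : JZero M →+ JZero M,
      (∀ (σ : AlgebraicClosure ℚ ≃ₐ[ℚ] AlgebraicClosure ℚ) (x : JZero M), T (σ • x) = σ • T x) →
      (∀ h : ℕ, h ≠ 0 → ∀ x : JZero M, h • x = 0 → T x = 0) →
      ∀ x : JZero M, H36.redPic A (hasScale_laurentBaseChange A M) hr (T x) = 0

/-- **KER.**  The kernel of the reduction map `redM` modulo `q ∤ M` is stable under the Hecke
operators `T_ℓ`, `ℓ ∤ M q`.  (Consequence of `RED.H51.Stmt_HRcore`.) -/
def Stmt_KerStable : Prop :=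
  ∀ (M q : ℕ) [NeZero M], q.Prime → ¬ q ∣ M →
    ∀ A : ValuationSubring (AlgebraicClosure ℚ), A.LiesOverPrime q →
    ∀ (r : Place (AlgebraicClosure ℚ) ↥(modularFunctionFieldBar M) →
        Place (kV A) ↥(redField A (modularFunctionFieldBar M) (hasScale_laurentBaseChange A M)))
      (hr : IsRed A (hasScale_laurentBaseChange A M) r),
      HasMove A (hasScale_laurentBaseChange A M) r →
    ∀ ℓ : Nat.Primes, ¬ (ℓ : ℕ) ∣ M → (ℓ : ℕ) ≠ q → ∀ z : JZero M,
      H36.redPic A (hasScale_laurentBaseChange A M) hr z = 0 →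
      H36.redPic A (hasScale_laurentBaseChange A M) hr (heckeOperatorBar M ℓ z) = 0

end Fermat.Agent.S43.Old
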