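import Fermat.Agent.S43.Old.Defs
import Fermat.Agent.S43.BadQ

/-!
# S43, leaf OLD (= LIFT-EIG): the geometric leaf OLD-RED  (helper75; owner of the proof: helper35)

`Stmt_OldRed`: `N = M q`, `q ∤ M`, `A` over `q`, `redM : J₀(M) → Pic (F~_M)` the reduction map.
Let `x ∈ J₀(N)[p]` be in the finite part (`Fin1`), not in `K1`, with `T_ℓ x = t_ℓ x` for the good
primes `ℓ`.  Then there is `z ∈ J₀(M)` such that `y = redM z` is a non-zero class killed by `p`
and `redM (T_ℓ z) = t_ℓ y` for the good primes `ℓ`.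

(`y` = the class of `div (res f) / p` on the component of `∞`, `F~_N = F~_M`; the prime `p` is
arbitrary, `q = p` is allowed.)
-/

set_option autoImplicit false
set_option synthInstance.maxHeartbeats 400000
set_option maxHeartbeats 1000000

noncomputable section

open AlgebraicCurve ModularCurve Fermat.Agent.S28.H73 Fermat.Agent.RED.H73
open Fermat.Agent.RED Fermat.Agent.BAD Fermat.Agent.S43.BadQ

namespace Fermat.Agent.S43.Old

/-- **OLD-RED.** -/
def Stmt_OldRed : Prop :=
  ∀ (p : ℕ), p.Prime → ∀ (N M q : ℕ) [NeZero N] [NeZero M], N = M * q → q.Prime → ¬ q ∣ M →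
    ∀ A : ValuationSubring (AlgebraicClosure ℚ), A.LiesOverPrime q →
    ∀ (r : Place (AlgebraicClosure ℚ) ↥(modularFunctionFieldBar M) →
        Place (kV A) ↥(redField A (modularFunctionFieldBar M) (hasScale_laurentBaseChange A M)))
      (hr : IsRed A (hasScale_laurentBaseChange A M) r),
      HasMove A (hasScale_laurentBaseChange A M) r →
    ∀ (S : Finset ℕ) (t : ℕ → ℤ) (x : JZero N), (p : ℤ) • x = 0 →
      Fin1 A N p x → ¬ InK1 A N p x →
      (∀ ℓ : Nat.Primes, (ℓ : ℕ) ∉ S → ¬ (ℓ : ℕ) ∣ N → (ℓ : ℕ) ≠ p →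
        heckeOperatorBar N ℓ x = t ℓ • x) →
      ∃ z : JZero M,
        H36.redPic A (hasScale_laurentBaseChange A M) hr z ≠ 0 ∧
        (p : ℤ) • H36.redPic A (hasScale_laurentBaseChange A M) hr z = 0 ∧
        ∀ ℓ : Nat.Primes, (ℓ : ℕ) ∉ S → ¬ (ℓ : ℕ) ∣ N → (ℓ : ℕ) ≠ p →
          H36.redPic A (hasScale_laurentBaseChange A M) hr (heckeOperatorBar M ℓ z)
            = t ℓ • H36.redPic A (hasScale_laurentBaseChange A M) hr z

end Fermat.Agent.S43.Old
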