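import Fermat.Agent.S43.Old.H35_LevelN
import Fermat.Agent.RED.Core2

/-!
# S43, leaf OLD-RED / G-RED HR (helper35): NORM-RED at the good level `M` and the unit case of
`r_* T_ℓ = T~_ℓ r_*`

`A` a valuation subring of `ℚ̄` over `q`, `q ∤ M ℓ`, `ℓ ∤ M` a prime, `r` a reduction map of places
of `F_M · ℚ̄` with the conservation law (`IsRed`).

* `hnorm_levelM` : **NORM-RED**: `res (Norm_α (β f)) = Norm_α~ (β~ (res f))` for `f` in the Gauss
  valuation ring of level `M`;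
* `mapDomain_hecke_unit` : `r_* (T_ℓ (div u)) = T~_ℓ (r_* (div u))` for Gauss units `u`, where
  `T~_ℓ = Divisor.correspondence (betaT A M ℓ) (alphaT A M ℓ)` is the Hecke correspondence of
  the reduced tower.
-/

set_option autoImplicit false
set_option linter.style.haveILetI false
set_option linter.unusedSectionVars false
set_option synthInstance.maxHeartbeats 400000
set_option maxHeartbeats 1000000

noncomputable section

open AlgebraicCurve ModularCurve Fermat.Agent.S28.H73 Fermat.Agent.RED.H73 Fermat.Agent.RED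
open Fermat.Agent.BAD

namespace Fermat.Agent.S43.Old.H35

section LevelM

variable (A : ValuationSubring (AlgebraicClosure ℚ))

theorem coe_gaussRes (N' : ℕ) (x : ↥(gaussV A N')) :
    ((gaussRes A N' x : ↥(Ft A N')) : LaurentSeries (kV A))
      = gaussResF A (hasScale_laurentBaseChange A N') x := rfl

theorem resTo_self (N' : ℕ) (x : ↥(gaussV A N')) :
    resTo A N' (Ft A N') le_rfl x = gaussRes A N' x :=
  Subtype.ext ((coe_resTo A N' (Ft A N') le_rfl x).trans (coe_gaussRes A N' x).symm)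

/-- **NORM-RED at the good level `M`**, general form (values in `resTo`). -/
theorem hnorm_levelM' (q M ℓ : ℕ) [NeZero M] [NeZero ℓ] (hq : q.Prime) (hℓ : ℓ.Prime)
    (hℓM : ¬ ℓ ∣ M) (hqMℓ : ¬ q ∣ M * ℓ) (hA : A.LiesOverPrime q) (f : ↥(gaussV A M)) :
    ∃ h : normAlong (heckeAlphaBar (AlgebraicClosure ℚ) M ℓ)
        (heckeBetaBar (AlgebraicClosure ℚ) M ℓ (f : ↥(FNbar M))) ∈ gaussV A M,
      resTo A M (Ft A M) le_rfl ⟨_, h⟩
        = normAlong (alphaT A M ℓ) (betaT A M ℓ (resTo A M (Ft A M) le_rfl f)) := by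
  haveI : NeZero (M * ℓ) := ⟨Nat.mul_ne_zero (NeZero.ne M) (NeZero.ne ℓ)⟩
  obtain ⟨hα, hβ, hP, hfin, hFI, hNF⟩ := RED.H51.stmt_HKA M ℓ
  letI iA : Algebra ↥(FNbar M) ↥(FNbar (M * ℓ)) :=
    algebraAlong (heckeAlphaBar (AlgebraicClosure ℚ) M ℓ)
  letI iA' : Algebra ↥(Ft A M) ↥(Ft A (M * ℓ)) := algebraAlong (alphaT A M ℓ)
  haveI : Module.Finite ↥(FNbar M) ↥(FNbar (M * ℓ)) := hfin
  have hβmem : heckeBetaBar (AlgebraicClosure ℚ) M ℓ (f : ↥(FNbar M)) ∈ gaussV A (M * ℓ) := by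
    rw [mem_gaussValSub_iff, coe_heckeBetaBar]
    exact qExpand_mem_gaussRingV A ℓ f.2
  have h1 : ∀ a : ↥(FNbar M), a ∈ gaussV A M
      ↔ algebraMap ↥(FNbar M) ↥(FNbar (M * ℓ)) a ∈ gaussV A (M * ℓ) := by
    intro a
    rw [mem_gaussValSub_iff, mem_gaussValSub_iff]
    show _ ↔ ((heckeAlphaBar (AlgebraicClosure ℚ) M ℓ a : ↥(FNbar (M * ℓ))) :
      LaurentSeries (AlgebraicClosure ℚ)) ∈ gaussRingV A
    rw [coe_heckeAlphaBar]
  have h2 : Function.Surjective (resTo A (M * ℓ) (Ft A (M * ℓ)) le_rfl) :=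
    resTo_surjective A _ _ le_rfl le_rfl
  have h3 : ∀ a : ↥(gaussV A (M * ℓ)),
      resTo A (M * ℓ) (Ft A (M * ℓ)) le_rfl a = 0 ↔ ¬ IsUnit a :=
    fun a => resTo_eq_zero_iff A _ _ _ a
  have h4 : ∀ (a : ↥(gaussV A M))
      (ha : algebraMap ↥(FNbar M) ↥(FNbar (M * ℓ)) (a : ↥(FNbar M)) ∈ gaussV A (M * ℓ)),
      resTo A (M * ℓ) (Ft A (M * ℓ)) le_rfl ⟨_, ha⟩
        = algebraMap ↥(Ft A M) ↥(Ft A (M * ℓ)) (resTo A M (Ft A M) le_rfl a) := by
    intro a ha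
    apply Subtype.ext
    rw [coe_resTo]
    show _ = ((alphaT A M ℓ (resTo A M (Ft A M) le_rfl a) : ↥(Ft A (M * ℓ))) :
      LaurentSeries (kV A))
    rw [coe_alphaT, coe_resTo, gaussResF_apply, gaussResF_apply]
    congr 1
  have h5 : Module.finrank ↥(FNbar M) ↥(FNbar (M * ℓ))
      = Module.finrank ↥(Ft A M) ↥(Ft A (M * ℓ)) := by
    show finrankAlong (AlgebraicClosure ℚ) (heckeAlphaBar (AlgebraicClosure ℚ) M ℓ)
      = finrankAlong (kV A) (alphaT A M ℓ)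
    rw [finrank_alpha_bar M ℓ hℓ hℓM, finrank_alphaT A M ℓ q hℓ hℓM hq hqMℓ hA]
  obtain ⟨hN, hNeq⟩ := RED.H10.stmt_NormRedAbs ↥(FNbar M) ↥(FNbar (M * ℓ))
    ↥(Ft A M) ↥(Ft A (M * ℓ)) (gaussV A M) (gaussV A (M * ℓ))
    (resTo A M (Ft A M) le_rfl) (resTo A (M * ℓ) (Ft A (M * ℓ)) le_rfl)
    h1 h2 h3 h4 h5 ⟨_, hβmem⟩
  refine ⟨hN, ?_⟩
  show resTo A M (Ft A M) le_rfl ⟨_, hN⟩ = Algebra.norm ↥(Ft A M)
    (betaT A M ℓ (resTo A M (Ft A M) le_rfl f))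
  rw [hNeq]
  congr 1
  apply Subtype.ext
  rw [coe_resTo, coe_betaT, coe_resTo, gaussResF_apply, gaussResF_apply]
  exact gaussRedV_qExpand A ℓ ⟨_, f.2⟩ _

/-- **NORM-RED at the good level `M`.** -/
theorem hnorm_levelM (q M ℓ : ℕ) [NeZero M] [NeZero ℓ] (hq : q.Prime) (hℓ : ℓ.Prime)
    (hℓM : ¬ ℓ ∣ M) (hqMℓ : ¬ q ∣ M * ℓ) (hA : A.LiesOverPrime q) (f : ↥(gaussV A M)) :
    ∃ h : normAlong (heckeAlphaBar (AlgebraicClosure ℚ) M ℓ)
        (heckeBetaBar (AlgebraicClosure ℚ) M ℓ (f : ↥(FNbar M))) ∈ gaussV A M,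
      gaussRes A M ⟨_, h⟩ = normAlong (alphaT A M ℓ) (betaT A M ℓ (gaussRes A M f)) := by
  obtain ⟨h, he⟩ := hnorm_levelM' A q M ℓ hq hℓ hℓM hqMℓ hA f
  refine ⟨h, ?_⟩
  rw [← resTo_self, ← resTo_self]
  exact he

/-- **The unit case of `r_* T_ℓ = T~_ℓ r_*`.** -/
theorem mapDomain_hecke_unit (q M ℓ : ℕ) [NeZero M] [NeZero ℓ] (hq : q.Prime) (hℓ : ℓ.Prime)
    (hℓM : ¬ ℓ ∣ M) (hqMℓ : ¬ q ∣ M * ℓ) (hA : A.LiesOverPrime q)
    (hα : HeckeAlphaBarIntegral (AlgebraicClosure ℚ) M ℓ)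
    (hβ : HeckeBetaBarIntegral (AlgebraicClosure ℚ) M ℓ)
    [HasPrincipalDivisors (AlgebraicClosure ℚ) ↥(modularFunctionFieldBar (M * ℓ))]
    (hα' : (alphaT A M ℓ).toRingHom.IsIntegral) (hβ' : (betaT A M ℓ).toRingHom.IsIntegral)
    [HasPrincipalDivisors (kV A) ↥(Ft A (M * ℓ))]
    (r : Place (AlgebraicClosure ℚ) ↥(modularFunctionFieldBar M) → Place (kV A) ↥(Ft A M))
    (hr : IsRed A (hasScale_laurentBaseChange A M) r)
    (u : ↥(gaussV A M)) (hu : IsUnit u)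
    (D : Divisor (AlgebraicClosure ℚ) ↥(modularFunctionFieldBar M))
    (hD : ∀ P, D P = P.ord (u : ↥(modularFunctionFieldBar M))) :
    Finsupp.mapDomain r (heckeDivBar hα hβ D)
      = Divisor.correspondence (betaT A M ℓ) (alphaT A M ℓ) hβ' hα' (Finsupp.mapDomain r D) := by
  obtain ⟨-, -, -, hfin, -, hNF⟩ := RED.H51.stmt_HKA M ℓ
  have TI := towerInputs (A := A) (M := M) (ℓ := ℓ) hq hA hqMℓ
  have hu0 : (u : ↥(modularFunctionFieldBar M)) ≠ 0 := by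
    intro h0
    have : u = 0 := Subtype.ext h0
    rw [this] at hu
    exact not_isUnit_zero hu
  obtain ⟨hmem, hres⟩ := hnorm_levelM A q M ℓ hq hℓ hℓM hqMℓ hA u
  have hy0 : gaussRes A M u ≠ 0 := by
    intro h0
    have h1 : gaussResF A (hasScale_laurentBaseChange A M) u = 0 := by
      rw [← coe_gaussRes, h0]
      rfl
    exact ((isUnit_iff_gaussResF_ne_zero A (hasScale_laurentBaseChange A M) u).1 hu) h1
  have hβy0 : betaT A M ℓ (gaussRes A M u) ≠ 0 := by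
    intro h0
    exact hy0 ((map_eq_zero (betaT A M ℓ)).1 h0)
  have hnu0 : gaussRes A M ⟨_, hmem⟩ ≠ 0 := by
    rw [hres]
    exact normAlong_ne_zero (alphaT A M ℓ) TI.hfin hβy0
  have hnuU : IsUnit (⟨_, hmem⟩ : ↥(gaussV A M)) := by
    rw [isUnit_iff_gaussResF_ne_zero A (hasScale_laurentBaseChange A M)]
    intro h0
    apply hnu0
    apply Subtype.ext
    rw [coe_gaussRes, h0]
    rfl
  have hTD : ∀ P, heckeDivBar hα hβ D P
      = P.ord (((⟨_, hmem⟩ : ↥(gaussV A M)) : ↥(modularFunctionFieldBar M))) := by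
    intro P
    have := corr_ord (heckeBetaBar (AlgebraicClosure ℚ) M ℓ)
      (heckeAlphaBar (AlgebraicClosure ℚ) M ℓ) hβ hα hfin hNF 1 D hu0
      (fun v => by rw [one_mul, hD v]) P
    rw [one_mul] at this
    exact this
  have hD1 : ∀ Q' : Place (kV A) ↥(Ft A M),
      (1 : ℤ) * (Finsupp.mapDomain r D) Q' = Q'.ord (gaussRes A M u) := fun Q' => by
    rw [one_mul]
    exact hr u hu D hD Q'
  ext Q
  have h2 := corr_ord (betaT A M ℓ) (alphaT A M ℓ) hβ' hα' TI.hfin TI.hNF 1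
    (Finsupp.mapDomain r D) hy0 hD1 Q
  rw [one_mul] at h2
  rw [h2, ← hres]
  exact hr ⟨_, hmem⟩ hnuU (heckeDivBar hα hβ D) hTD Q

end LevelM

end Fermat.Agent.S43.Old.H35
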