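import Fermat.Agent.RED.H36_FinAbs
import Fermat.Agent.RED.H17_Lift
import Fermat.Agent.RED.H17_TIabs

/-!
# S43, leaf OLD-RED: two auxiliary lemmas (helper75)

Setting of `RED/Core.lean`: `O` a valuation subring of `C`, `F ⊆ C((q))` with `HasScale O F`,
`V = gaussValSub O F h`, `res = gaussResF' O h`, `F~ = redField O F h`, `k = kV O`.

* `exists_degZero_mapDomain_eq` **(LIFT-PT)** : every divisor of degree `0` of `F~` is `r_* D` for
  a divisor `D` of degree `0` of `F` (`r` is surjective on places);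
* `exists_redPic_eq` : every class of degree `0` is in the image of `redPic`;
* `exists_kummer_one_of_principal` **(NONZERO)** : if `p D = div f`, `f` a Gauss unit, and
  `div (res f) = p · div g'`, then the class of `D` has a Kummer function `f₁` with `res f₁ = 1`.
-/

set_option autoImplicit false
set_option linter.style.haveILetI false
set_option synthInstance.maxHeartbeats 400000
set_option maxHeartbeats 1000000

noncomputable section

open AlgebraicCurve ModularCurve Fermat.Agent.S28.H73 Fermat.Agent.RED.H73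
open Fermat.Agent.RED

namespace Fermat.Agent.S43.Old.H75

variable {C : Type} [Field C] (O : ValuationSubring C)
variable {F : IntermediateField C (LaurentSeries C)} (h : HasScale O F)
variable {r : Place C ↥F → Place (kV O) ↥(redField O F h)}

/-- The reduction map of places is surjective. -/
theorem isRed_surjective (hr : IsRed O h r) (hP : HasPrincipalDivisors C ↥F) :
    Function.Surjective r := fun Q =>
  (H17.redSetupOf O h r hr).r_surjective hP Q

/-- **LIFT-PT**: every divisor of degree `0` of the reduced field is the push-forward of a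
divisor of degree `0`. -/
theorem exists_degZero_mapDomain_eq (hr : IsRed O h r) (hP : HasPrincipalDivisors C ↥F)
    (hdeg : ∀ v : Place C ↥F, v.deg = 1)
    (hdeg' : ∀ v : Place (kV O) ↥(redField O F h), v.deg = 1)
    (D' : Divisor (kV O) ↥(redField O F h)) (hD' : Divisor.degree D' = 0) :
    ∃ D : Divisor.degZero (K := C) (F := ↥F),
      Finsupp.mapDomain r (D : Divisor C ↥F) = D' := by
  have hs := isRed_surjective O h hr hP
  choose s hs using hs
  have h1 : Finsupp.mapDomain r (Finsupp.mapDomain s D') = D' := by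
    rw [← Finsupp.mapDomain_comp]
    have : r ∘ s = id := funext hs
    rw [this, Finsupp.mapDomain_id]
  refine ⟨⟨Finsupp.mapDomain s D', ?_⟩, h1⟩
  rw [Divisor.mem_degZero, H17.degree_mapDomain hdeg' hdeg, hD']

/-- Every class of degree `0` of the reduced field is in the image of `redPic`. -/
theorem exists_redPic_eq (hr : IsRed O h r) (hP : HasPrincipalDivisors C ↥F)
    (hdeg : ∀ v : Place C ↥F, v.deg = 1)
    (hdeg' : ∀ v : Place (kV O) ↥(redField O F h), v.deg = 1)
    (D' : Divisor (kV O) ↥(redField O F h)) (hD' : Divisor.degree D' = 0) :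
    ∃ z : Pic0 C ↥F, H36.redPic O h hr z = QuotientAddGroup.mk D' := by
  obtain ⟨D, hD⟩ := exists_degZero_mapDomain_eq O h hr hP hdeg hdeg' D' hD'
  exact ⟨Pic0.mk D, by rw [H36.redPic_mk, hD]⟩

/-- **NONZERO**: if `p D = div f` with `f` a Gauss unit and `div (res f) = p · div g'`, then the
class of `D` has a Kummer function which is `≡ 1`. -/
theorem exists_kummer_one_of_principal [IsAlgClosed (kV O)]
    (hP : HasPrincipalDivisors C ↥F)
    (hconst : ∀ g : ↥(redField O F h), g ≠ 0 →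
      (∀ Q : Place (kV O) ↥(redField O F h), Q.ord g = 0) →
      ∃ c : kV O, g = algebraMap (kV O) ↥(redField O F h) c)
    (p : ℕ) (hp : p ≠ 0)
    (D : Divisor.degZero (K := C) (F := ↥F)) (f : ↥(gaussValSub O F h))
    (hf : gaussResF' O h f ≠ 0)
    (hD : ∀ P : Place C ↥F, (p : ℤ) * (D : Divisor C ↥F) P = P.ord (f : ↥F))
    (g' : ↥(redField O F h)) (hg'0 : g' ≠ 0)
    (hg' : ∀ Q : Place (kV O) ↥(redField O F h),
      Q.ord (gaussResF' O h f) = (p : ℤ) * Q.ord g') :
    ∃ (D₁ : Divisor.degZero (K := C) (F := ↥F)) (f₁ : ↥(gaussValSub O F h)),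
      Pic0.mk D = Pic0.mk D₁ ∧ gaussResF' O h f₁ = 1 ∧
      ∀ P : Place C ↥F, (p : ℤ) * (D₁ : Divisor C ↥F) P = P.ord (f₁ : ↥F) := by
  have hppos : 0 < p := Nat.pos_of_ne_zero hp
  have hfU : IsUnit f := (H17.gaussResF'_ne_zero_iff_isUnit O h f).mp hf
  obtain ⟨u, rfl⟩ := hfU
  have hu0 := H36.unit_coe_ne_zero O h u
  -- `res u / g' ^ p` is a constant
  have hg0 : gaussResF' O h u / g' ^ p ≠ 0 := div_ne_zero hf (pow_ne_zero p hg'0)
  obtain ⟨c, hc⟩ := hconst _ hg0 (fun Q => by
    rw [H17.ord_div Q hf (pow_ne_zero p hg'0), H17.ord_pow, hg' Q, sub_self])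
  have hc0 : c ≠ 0 := by
    rintro rfl
    rw [map_zero] at hc
    exact hg0 hc
  obtain ⟨d, hd⟩ := IsAlgClosed.exists_pow_nat_eq c hppos
  have hd0 : d ≠ 0 := by
    rintro rfl
    rw [zero_pow hp] at hd
    exact hc0 hd.symm
  set y' : ↥(redField O F h) := algebraMap (kV O) ↥(redField O F h) d * g' with hy'
  have hy'0 : y' ≠ 0 := mul_ne_zero ((map_ne_zero _).mpr hd0) hg'0
  have hres : gaussResF' O h u = y' ^ p := by
    rw [hy', mul_pow, ← map_pow, hd, ← hc, div_mul_cancel₀ _ (pow_ne_zero p hg'0)]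
  -- lift `y'`
  obtain ⟨w, hw⟩ := gaussResF'_surjective O h y'
  have hwu : IsUnit w := (H17.gaussResF'_ne_zero_iff_isUnit O h w).mp (by rw [hw]; exact hy'0)
  obtain ⟨w, rfl⟩ := hwu
  have hw0 := H36.unit_coe_ne_zero O h w
  -- `u' = u / w ^ p` reduces to `1`
  have hres' : gaussResF' O h ((u * (w⁻¹) ^ p : (↥(gaussValSub O F h))ˣ) :
      ↥(gaussValSub O F h)) = 1 := by
    rw [Units.val_mul, Units.val_pow_eq_pow_val, map_mul, map_pow, hres]
    have h1 : gaussResF' O h ((w⁻¹ : (↥(gaussValSub O F h))ˣ) : ↥(gaussValSub O F h))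
        = y'⁻¹ := by
      rw [← hw]
      exact (eq_inv_of_mul_eq_one_left (by rw [← map_mul, Units.inv_mul, map_one]))
    rw [h1, ← mul_pow, mul_inv_cancel₀ hy'0, one_pow]
  have hcoe : (((u * (w⁻¹) ^ p : (↥(gaussValSub O F h))ˣ) : ↥(gaussValSub O F h)) : ↥F)
      = ((u : ↥(gaussValSub O F h)) : ↥F) / ((w : ↥(gaussValSub O F h)) : ↥F) ^ p := by
    rw [Units.val_mul, Units.val_pow_eq_pow_val]
    have h1 : (((w⁻¹ : (↥(gaussValSub O F h))ˣ) : ↥(gaussValSub O F h)) : ↥F)
        = (((w : ↥(gaussValSub O F h)) : ↥F))⁻¹ := by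
      refine eq_inv_of_mul_eq_one_left ?_
      have e1 : ((w⁻¹ : (↥(gaussValSub O F h))ˣ) : ↥(gaussValSub O F h))
          * (w : ↥(gaussValSub O F h)) = 1 := Units.inv_mul w
      exact congrArg (fun z : ↥(gaussValSub O F h) => (z : ↥F)) e1
    show ((u : ↥(gaussValSub O F h)) : ↥F)
        * (((w⁻¹ : (↥(gaussValSub O F h))ˣ) : ↥(gaussValSub O F h)) : ↥F) ^ p = _
    rw [h1, inv_pow, div_eq_mul_inv]
  -- the divisor of `w`
  obtain ⟨E, hE, hE0⟩ := hP.exists_divisor ((w : ↥(gaussValSub O F h)) : ↥F) hw0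
  have hEp : E ∈ Divisor.principal (K := C) (F := ↥F) := ⟨_, hw0, hE⟩
  refine ⟨D - ⟨E, Divisor.mem_degZero.mpr hE0⟩,
    ((u * (w⁻¹) ^ p : (↥(gaussValSub O F h))ˣ) : ↥(gaussValSub O F h)), ?_, hres', fun P => ?_⟩
  · refine (QuotientAddGroup.eq (s := (Divisor.principal (K := C) (F := ↥F)).addSubgroupOf
      (Divisor.degZero (K := C) (F := ↥F)))).mpr ?_
    rw [AddSubgroup.mem_addSubgroupOf]
    have e : ((-D + (D - ⟨E, Divisor.mem_degZero.mpr hE0⟩ :
        Divisor.degZero (K := C) (F := ↥F)) : Divisor.degZero (K := C) (F := ↥F)) :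
        Divisor C ↥F) = -E := by
      have e1 : (-D + (D - ⟨E, Divisor.mem_degZero.mpr hE0⟩ :
          Divisor.degZero (K := C) (F := ↥F)) : Divisor.degZero (K := C) (F := ↥F))
          = -⟨E, Divisor.mem_degZero.mpr hE0⟩ := by abel
      rw [e1]
      rfl
    rw [e]
    exact (Divisor.principal (K := C) (F := ↥F)).neg_mem hEp
  · rw [hcoe, H17.ord_div P hu0 (pow_ne_zero p hw0), H17.ord_pow, ← hD P, ← hE P]
    show (p : ℤ) * ((D : Divisor C ↥F) - E) P = _
    rw [Finsupp.sub_apply, mul_sub]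

end Fermat.Agent.S43.Old.H75
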