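import Fermat.Agent.S43.Old.DefsRed
import Fermat.Agent.S43.Old.H75_WireAbs
import Fermat.Agent.L.LiftEig.Defs
import Fermat.Agent.RED.H36_AllRed
import Fermat.Agent.GTor.H2_GalHecke

/-!
# S43, leaf OLD (= LIFT-EIG): the wiring (helper75)

`old_of_leaves` : `Stmt_OldRed → Stmt_Star → Stmt_KerStable → Stmt_TorsRel → Stmt_CharM →` the
statement OLD for every prime `p` and every prime `q ∥ N` (`q = p` allowed);
`stmt_Old_of_leaves` : the same leaves give `S43.BadQ.Stmt_Old`.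

Proof.  `M = N / q`, `r` the reduction map of level `M` (`H36.stmt_RM`), `z` from OLD-RED,
`y = redM z ≠ 0`, `p y = 0`.  Let `P` be a relation of the good Hecke operators on the Betti
lattice of level `M`.  `P(T)` kills the torsion of `J₀(M)` (TORS-REL) and commutes with `G_ℚ`
(`GTor.H2.stmt_GalHecke`), so `redM (P(T) z) = 0` (STAR).  On the other hand
`redM (P(T) z) = P(t) y` (`red_lift_eq`, by KER and OLD-RED).  Hence `p ∣ P(t)`, and CHAR-M gives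
the eigenform of level `M`.
-/

set_option autoImplicit false
set_option linter.style.haveILetI false
set_option linter.unusedSectionVars false
set_option synthInstance.maxHeartbeats 400000
set_option maxHeartbeats 1600000

noncomputable section

open AlgebraicCurve ModularCurve Fermat.Agent.S28.H73 Fermat.Agent.RED.H73
open Fermat.Agent.RED Fermat.Agent.BAD Fermat.Agent.S43.BadQ Fermat.Agent.S44
open Fermat.Agent.L.LiftEig

namespace Fermat.Agent.S43.Old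

/-- **OLD from the leaves**, general form: `p` any prime, `q ∥ N` any prime. -/
theorem old_of_leaves (hOR : Stmt_OldRed) (hStar : Stmt_Star) (hKer : Stmt_KerStable)
    (hTR : Stmt_TorsRel) (hCM : Stmt_CharM)
    (p : ℕ) (hp : p.Prime) (N : ℕ) [NeZero N] (q : ℕ) (hq : q.Prime) (hqN : q ∣ N)
    (hq2 : ¬ q ^ 2 ∣ N) (A : ValuationSubring (AlgebraicClosure ℚ)) (hA : A.LiesOverPrime q)
    (S : Finset ℕ) (t : ℕ → ℤ) (x : (jzModule N p).J)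
    (hF : Fin1 A N p (jzModule.pt N p x)) (hK : ¬ InK1 A N p (jzModule.pt N p x))
    (hT : ∀ ℓ : ℕ, ℓ.Prime → ℓ ∉ S → ¬ ℓ ∣ N → ℓ ≠ p →
      (jzModule N p).T ℓ x = ((t ℓ : ℤ) : ZMod p) • x) :
    ∃ (g : CuspForm (CongruenceSubgroup.Gamma0 (N / q)) 2) (𝔪 : Ideal ZBar),
      g.IsNormalizedEigenform ∧ 𝔪.IsMaximal ∧ (p : ZBar) ∈ 𝔪 ∧
      ∀ ℓ : ℕ, ℓ.Prime → ℓ ∉ S → ¬ ℓ ∣ N → ℓ ≠ p →
        ∃ a : ZBar, (a : ℂ) = ModularFormClass.qCoeff g ℓ ∧ a - ((t ℓ : ℤ) : ZBar) ∈ 𝔪 := by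
  have hN : N = N / q * q := (Nat.div_mul_cancel hqN).symm
  have hM0 : N / q ≠ 0 := by
    intro h0
    have h1 := hN
    rw [h0, zero_mul] at h1
    exact NeZero.ne N h1
  haveI : NeZero (N / q) := ⟨hM0⟩
  have hqM : ¬ q ∣ N / q := by
    rintro ⟨k, hk⟩
    apply hq2
    refine ⟨k, ?_⟩
    calc N = N / q * q := hN
      _ = q * k * q := by rw [hk]
      _ = q ^ 2 * k := by ring
  have hMN : N / q ∣ N := Nat.div_dvd_of_dvd hqN
  obtain ⟨r, hr, hmove⟩ := H36.stmt_RM (N / q) q hq hqM A hA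
  -- the eigen-equation on `J₀(N)`
  have hT' : ∀ ℓ : Nat.Primes, (ℓ : ℕ) ∉ S → ¬ (ℓ : ℕ) ∣ N → (ℓ : ℕ) ≠ p →
      heckeOperatorBar N ℓ (jzModule.pt N p x) = t ℓ • jzModule.pt N p x := by
    intro ℓ hℓS hℓN hℓp
    have h1 := hT ℓ ℓ.2 hℓS hℓN hℓp
    have h2 := congrArg (jzModule.pt N p) h1
    rw [jzModule.pt_T N p ℓ.2 hℓN] at h2
    exact h2.trans (coe_intCast_smul p N (t ℓ) x)
  obtain ⟨z, hz0, hzp, hzT⟩ := hOR p hp N (N / q) q hN hq hqM A hA r hr hmove S t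
    (jzModule.pt N p x) (jzModule.pt_torsion N p x) hF hK hT'
  -- the bad set
  obtain ⟨S₁, hS₁⟩ : ∃ S₁ : Finset ℕ, S₁ = insert p (insert q S) := ⟨_, rfl⟩
  have hmemS₁ : ∀ ℓ : ℕ, ℓ ∉ S₁ ↔ ℓ ≠ p ∧ ℓ ≠ q ∧ ℓ ∉ S := by
    intro ℓ
    rw [hS₁, Finset.mem_insert, Finset.mem_insert]
    tauto
  have hndvd : ∀ ℓ : ℕ, ℓ.Prime → ¬ ℓ ∣ N / q → ℓ ≠ q → ¬ ℓ ∣ N := by
    intro ℓ hℓ hℓM hℓq hℓN
    rw [hN] at hℓN
    rcases (Nat.Prime.dvd_mul hℓ).mp hℓN with h | h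
    · exact hℓM h
    · exact hℓq ((Nat.prime_dvd_prime_iff_eq hℓ hq).mp h)
  -- the relations
  have hrel : ∀ P : HPoly (N / q) (↑S₁ : Set ℕ), IsBettiRel (N / q) ↑S₁ P →
      (p : ℤ) ∣ evalt (N / q) ↑S₁ t P := by
    intro P hP
    -- `P(T)` kills the reduction
    have h1 : H36.redPic A (hasScale_laurentBaseChange A (N / q)) hr
        (evalJ (N / q) ↑S₁ P z) = 0 := by
      refine hStar (N / q) q hq hqM A hA r hr (evalJ (N / q) ↑S₁ P).toAddMonoidHom ?_ ?_ z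
      · intro σ y
        exact H75.lift_smul_comm
          (fun ℓ : GoodPrime (N / q) (↑S₁ : Set ℕ) => heckeOperatorBar (N / q) ⟨ℓ.1, ℓ.2.1⟩)
          (fun ℓ σ y => (Fermat.Agent.GTor.H2.stmt_GalHecke (N / q) ⟨ℓ.1, ℓ.2.1⟩ σ y).symm)
          P σ y
      · intro h hh y hy
        exact hTR (N / q) ↑S₁ P hP h hh y hy
    -- `redM (P(T) z) = P(t) redM z`
    have h2 := H75.red_lift_eq (H36.redPic A (hasScale_laurentBaseChange A (N / q)) hr)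
      (fun ℓ : GoodPrime (N / q) (↑S₁ : Set ℕ) => heckeOperatorBar (N / q) ⟨ℓ.1, ℓ.2.1⟩)
      (fun ℓ : GoodPrime (N / q) (↑S₁ : Set ℕ) => t ℓ.1)
      (fun ℓ u hu => hKer (N / q) q hq hqM A hA r hr hmove ⟨ℓ.1, ℓ.2.1⟩ ℓ.2.2.1
        (((hmemS₁ ℓ.1).mp ℓ.2.2.2).2.1) u hu)
      z
      (fun ℓ => hzT ⟨ℓ.1, ℓ.2.1⟩ (((hmemS₁ ℓ.1).mp ℓ.2.2.2).2.2)
        (hndvd ℓ.1 ℓ.2.1 ℓ.2.2.1 (((hmemS₁ ℓ.1).mp ℓ.2.2.2).2.1))
        (((hmemS₁ ℓ.1).mp ℓ.2.2.2).1))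
      P z 1 (one_smul ℤ _).symm
    have h3 : evalt (N / q) ↑S₁ t P •
        H36.redPic A (hasScale_laurentBaseChange A (N / q)) hr z = 0 := by
      have h4 : H36.redPic A (hasScale_laurentBaseChange A (N / q)) hr
          (evalJ (N / q) ↑S₁ P z) = (evalt (N / q) ↑S₁ t P * 1) •
          H36.redPic A (hasScale_laurentBaseChange A (N / q)) hr z := h2
      rw [h1, mul_one] at h4
      exact h4.symm
    exact H75.dvd_of_smul_eq_zero hp hz0 hzp h3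
  obtain ⟨g, 𝔪, hg, h𝔪, hp𝔪, hcong⟩ := hCM p hp (N / q) S₁ t hrel
  refine ⟨g, 𝔪, hg, h𝔪, hp𝔪, fun ℓ hℓ hℓS hℓN hℓp => ?_⟩
  have hℓq : ℓ ≠ q := by
    rintro rfl
    exact hℓN hqN
  exact hcong ℓ hℓ ((hmemS₁ ℓ).mpr ⟨hℓp, hℓq, hℓS⟩) (fun h => hℓN (h.trans hMN))

/-- **`S43.BadQ.Stmt_Old` from the leaves.** -/
theorem stmt_Old_of_leaves (hOR : Stmt_OldRed) (hStar : Stmt_Star) (hKer : Stmt_KerStable)
    (hTR : Stmt_TorsRel) (hCM : Stmt_CharM) : Stmt_Old := by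
  intro p hp _ N _ q hq _ hqN hq2 A hA S t x hF hK hT
  exact old_of_leaves hOR hStar hKer hTR hCM p hp N q hq hqN hq2 A hA S t x hF hK hT

end Fermat.Agent.S43.Old
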