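import Fermat.Agent.S43.Old.H75_OldRedAsm
import Fermat.Agent.S43.Old.H35_Eigen
import Fermat.Agent.S43.Old.Wire
import Fermat.Agent.S43.Old.H75_Star
import Fermat.Agent.L.LiftEig.H37_TorsRel
import Fermat.Agent.L.LiftEig.H46_CharMStmt

/-!
# S43, leaf OLD: everything from the divisor form of HR at the good primes (helper75)

`Stmt_HRdiv` : for `q ∤ M`, `A` over `q`, `ℓ ∤ M q` a prime, `r` the reduction map of places of
level `M`:  `r_* (T_ℓ D) ≡ T~_ℓ (r_* D)` modulo principal divisors, for ALL divisors `D` of `F_M`;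
`T~_ℓ = α~_* β~^*` the correspondence of the reduced Hecke tower (`H35.alphaT`, `H35.betaT`).

* `stmt_HeckeRed_of_HRdiv`  : `Stmt_HRdiv → Stmt_HeckeRed`  (with `H35.levelN_eigen_T`);
* `stmt_KerStable_of_HRdiv` : `Stmt_HRdiv → Stmt_KerStable`;
* `stmt_OldRed_of_HRdiv`    : `Stmt_HRdiv → Stmt_OldRed`;
* `old_of_HRdiv`, `stmt_Old_of_HRdiv` : `Stmt_HRdiv →` OLD (any `p`, `q ∥ N`), `S43.BadQ.Stmt_Old`.
-/

set_option autoImplicit false
set_option linter.style.haveILetI false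
set_option linter.unusedSectionVars false
set_option synthInstance.maxHeartbeats 400000
set_option maxHeartbeats 1600000

noncomputable section

open AlgebraicCurve ModularCurve Fermat.Agent.S28.H73 Fermat.Agent.RED.H73
open Fermat.Agent.RED Fermat.Agent.BAD Fermat.Agent.S43.BadQ Fermat.Agent.S44

namespace Fermat.Agent.S43.Old

/-- **HR, divisor form**, at the good primes: `r_* T_ℓ ≡ T~_ℓ r_*` modulo principal divisors. -/
def Stmt_HRdiv : Prop :=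
  ∀ (M q ℓ : ℕ) [NeZero M] [NeZero ℓ], q.Prime → ¬ q ∣ M → ℓ.Prime → ¬ ℓ ∣ M → ℓ ≠ q →
    ∀ A : ValuationSubring (AlgebraicClosure ℚ), A.LiesOverPrime q →
    ∀ (hα' : (H35.alphaT A M ℓ).toRingHom.IsIntegral)
      (hβ' : (H35.betaT A M ℓ).toRingHom.IsIntegral)
      [HasPrincipalDivisors (kV A) ↥(H35.Ft A (M * ℓ))]
      (hα : HeckeAlphaBarIntegral (AlgebraicClosure ℚ) M ℓ)
      (hβ : HeckeBetaBarIntegral (AlgebraicClosure ℚ) M ℓ)
      [HasPrincipalDivisors (AlgebraicClosure ℚ) ↥(modularFunctionFieldBar (M * ℓ))]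
      (r : Place (AlgebraicClosure ℚ) ↥(modularFunctionFieldBar M) →
        Place (kV A) ↥(H35.Ft A M)),
      IsRed A (hasScale_laurentBaseChange A M) r →
      HasMove A (hasScale_laurentBaseChange A M) r →
      ∀ Dz : Divisor (AlgebraicClosure ℚ) ↥(modularFunctionFieldBar M),
        Divisor.IsPrincipal (K := kV A) (F := ↥(H35.Ft A M))
          (Finsupp.mapDomain r (heckeDivBar hα hβ Dz)
            - Divisor.correspondence (H35.betaT A M ℓ) (H35.alphaT A M ℓ) hβ' hα'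
                (Finsupp.mapDomain r Dz))

/-- `Stmt_HRdiv → Stmt_HeckeRed`. -/
theorem stmt_HeckeRed_of_HRdiv (h : Stmt_HRdiv) : Stmt_HeckeRed := by
  intro p hp M q ℓ _ _ _ hq hqM hℓ hℓN A hA
  have hℓq : ℓ ≠ q := fun h' => hℓN (h' ▸ dvd_mul_left ℓ M)
  have hℓM : ¬ ℓ ∣ M := fun h' => hℓN (h'.mul_right q)
  have hqMℓ : ¬ q ∣ M * ℓ := by
    intro h'
    rcases (Nat.Prime.dvd_mul hq).1 h' with h1 | h1
    · exact hqM h1
    · exact hℓq ((Nat.prime_dvd_prime_iff_eq hq hℓ).1 h1).symm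
  have TI := H35.towerInputs (A := A) (M := M) (ℓ := ℓ) hq hA hqMℓ
  haveI := TI.hP
  refine ⟨Divisor.correspondence (H35.betaT A M ℓ) (H35.alphaT A M ℓ) TI.hβ TI.hα, ?_, ?_⟩
  · intro hα hβ _ r hr hmove Dz
    exact h M q ℓ hq hqM hℓ hℓM hℓq A hA TI.hα TI.hβ hα hβ r hr hmove Dz
  · intro hα hβ _ D f hf hD g hg D' hD' t heig
    exact H35.levelN_eigen_T A p hp.ne_zero q M ℓ hq hqM hℓ hℓN hA hα hβ TI.hα TI.hβ D f hf hD
      g hg D' hD' t heig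

/-- `Stmt_HRdiv → Stmt_KerStable`. -/
theorem stmt_KerStable_of_HRdiv (h : Stmt_HRdiv) : Stmt_KerStable := by
  intro M q _ hq hqM A hA r hr hmove ℓ hℓM hℓq z hz
  haveI : NeZero (ℓ : ℕ) := ⟨ℓ.2.ne_zero⟩
  have hqMℓ : ¬ q ∣ M * (ℓ : ℕ) := by
    intro h'
    rcases (Nat.Prime.dvd_mul hq).1 h' with h1 | h1
    · exact hqM h1
    · exact hℓq ((Nat.prime_dvd_prime_iff_eq hq ℓ.2).1 h1).symm
  have TI := H35.towerInputs (A := A) (M := M) (ℓ := (ℓ : ℕ)) hq hA hqMℓ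
  haveI := TI.hP
  obtain ⟨hα, hβ, hP, hfin, hFI, hNF⟩ := H51.stmt_HKA M (ℓ : ℕ)
  obtain ⟨D, rfl⟩ := Pic0.mk_surjective z
  rw [heckeOperatorBar_apply, heckeOperatorAlong_eq hα hβ hFI hfin hNF]
  have hmk : heckePic0Bar hα hβ hFI hfin hNF (Pic0.mk D)
      = Pic0.mk (Pic0.degZeroCorrespondence (heckeBetaBar (AlgebraicClosure ℚ) M (ℓ : ℕ))
          (heckeAlphaBar (AlgebraicClosure ℚ) M (ℓ : ℕ)) hβ hα hFI D) := rfl
  rw [hmk, H36.redPic_mk_eq_zero_iff]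
  rw [H36.redPic_mk_eq_zero_iff] at hz
  have h1 := h M q (ℓ : ℕ) hq hqM ℓ.2 hℓM hℓq A hA TI.hα TI.hβ hα hβ r hr hmove
    (D : Divisor (AlgebraicClosure ℚ) ↥(modularFunctionFieldBar M))
  have h2 : Divisor.correspondence (H35.betaT A M (ℓ : ℕ)) (H35.alphaT A M (ℓ : ℕ)) TI.hβ TI.hα
      (Finsupp.mapDomain r (D : Divisor (AlgebraicClosure ℚ) ↥(modularFunctionFieldBar M)))
      ∈ Divisor.principal (K := kV A) (F := ↥(H35.Ft A M)) :=
    Divisor.correspondence_mem_principal (H35.betaT A M (ℓ : ℕ)) (H35.alphaT A M (ℓ : ℕ))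
      TI.hβ TI.hα TI.hfin TI.hNF hz
  have h3 := (Divisor.principal (K := kV A) (F := ↥(H35.Ft A M))).add_mem h1 h2
  rw [sub_add_cancel] at h3
  exact h3

/-- `Stmt_HRdiv → Stmt_OldRed`. -/
theorem stmt_OldRed_of_HRdiv (h : Stmt_HRdiv) : Stmt_OldRed :=
  stmt_OldRed_of_heckeRed (stmt_HeckeRed_of_HRdiv h)

/-- **OLD** (general form: `p` any prime, `q ∥ N`, `q = p` allowed) from `Stmt_HRdiv`. -/
theorem old_of_HRdiv (h : Stmt_HRdiv)
    (p : ℕ) (hp : p.Prime) (N : ℕ) [NeZero N] (q : ℕ) (hq : q.Prime) (hqN : q ∣ N)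
    (hq2 : ¬ q ^ 2 ∣ N) (A : ValuationSubring (AlgebraicClosure ℚ)) (hA : A.LiesOverPrime q)
    (S : Finset ℕ) (t : ℕ → ℤ) (x : (jzModule N p).J)
    (hF : Fin1 A N p (jzModule.pt N p x)) (hK : ¬ InK1 A N p (jzModule.pt N p x))
    (hT : ∀ ℓ : ℕ, ℓ.Prime → ℓ ∉ S → ¬ ℓ ∣ N → ℓ ≠ p →
      (jzModule N p).T ℓ x = ((t ℓ : ℤ) : ZMod p) • x) :
    ∃ (g : CuspForm (CongruenceSubgroup.Gamma0 (N / q)) 2) (𝔪 : Ideal ZBar),
      g.IsNormalizedEigenform ∧ 𝔪.IsMaximal ∧ (p : ZBar) ∈ 𝔪 ∧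
      ∀ ℓ : ℕ, ℓ.Prime → ℓ ∉ S → ¬ ℓ ∣ N → ℓ ≠ p →
        ∃ a : ZBar, (a : ℂ) = ModularFormClass.qCoeff g ℓ ∧ a - ((t ℓ : ℤ) : ZBar) ∈ 𝔪 :=
  old_of_leaves (stmt_OldRed_of_HRdiv h) H75.stmt_Star (stmt_KerStable_of_HRdiv h)
    Fermat.Agent.L.LiftEig.H37.stmt_TorsRel Fermat.Agent.L.LiftEig.H46.stmt_CharM
    p hp N q hq hqN hq2 A hA S t x hF hK hT

/-- **`S43.BadQ.Stmt_Old`** from `Stmt_HRdiv`. -/
theorem stmt_Old_of_HRdiv (h : Stmt_HRdiv) : Stmt_Old := by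
  intro p hp _ N _ q hq _ hqN hq2 A hA S t x hF hK hT
  exact old_of_HRdiv h p hp N q hq hqN hq2 A hA S t x hF hK hT

end Fermat.Agent.S43.Old
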