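import Fermat.Agent.S43.Old.DefsRed
import Fermat.Agent.S43.Old.H75_Aux
import Fermat.Agent.RED.H51_HKA
import Fermat.Agent.RED.H17_LiftMove
import Fermat.Agent.RED.H73_GAFinal
import Fermat.Agent.RED.H36_Fin
import Fermat.Agent.BAD.H82_Deg

/-!
# S43, leaf OLD-RED: assembly from the Hecke compatibility of the reductions (helper75)

`Stmt_HeckeRed` : for `N = M q`, `q ∤ M`, `A` over `q` and a prime `ℓ ∤ N` there is an additive
endomorphism `T~` of the divisors of the reduced field `F~_M` such that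

* (level `M`)  `r_* (T_ℓ D_z) - T~ (r_* D_z)` is principal for every divisor `D_z` of `F_M`
  (helper95: `T~ = α~_* β~^*`, divisor-level form of HR);
* (level `N`)  if `p D = div f`, `f` a Gauss unit of `F_N`, `p D' = div (res f)` on
  `F~_N = F~_M` and `T_ℓ D - t D` is principal, then `T~ D' - t D'` is principal
  (helper35: NORM-RED along `α` at level `N`, `H35.tilde_eigen_of_eigen`).

`stmt_OldRed_of_heckeRed : Stmt_HeckeRed → Stmt_OldRed`.
-/

set_option autoImplicit false
set_option linter.style.haveILetI false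
set_option linter.unusedSectionVars false
set_option synthInstance.maxHeartbeats 400000
set_option maxHeartbeats 1600000

noncomputable section

open AlgebraicCurve ModularCurve Fermat.Agent.S28.H73 Fermat.Agent.RED.H73
open Fermat.Agent.RED Fermat.Agent.BAD Fermat.Agent.S43.BadQ

namespace Fermat.Agent.S43.Old

/-- **HECKE-RED**: the Hecke compatibility of the two reductions (level `M`, place reduction;
level `N = M q`, reduction of Kummer functions on the component of `∞`). -/
def Stmt_HeckeRed : Prop :=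
  ∀ (p : ℕ), p.Prime → ∀ (M q ℓ : ℕ) [NeZero M] [NeZero (M * q)] [NeZero ℓ], q.Prime → ¬ q ∣ M →
    ℓ.Prime → ¬ ℓ ∣ M * q →
    ∀ A : ValuationSubring (AlgebraicClosure ℚ), A.LiesOverPrime q →
    ∃ Tt : Divisor (kV A)
          ↥(redField A (modularFunctionFieldBar M) (hasScale_laurentBaseChange A M)) →+
        Divisor (kV A)
          ↥(redField A (modularFunctionFieldBar M) (hasScale_laurentBaseChange A M)),
      (∀ (hα : HeckeAlphaBarIntegral (AlgebraicClosure ℚ) M ℓ)
          (hβ : HeckeBetaBarIntegral (AlgebraicClosure ℚ) M ℓ)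
          [HasPrincipalDivisors (AlgebraicClosure ℚ) ↥(modularFunctionFieldBar (M * ℓ))]
          (r : Place (AlgebraicClosure ℚ) ↥(modularFunctionFieldBar M) →
            Place (kV A)
              ↥(redField A (modularFunctionFieldBar M) (hasScale_laurentBaseChange A M))),
          IsRed A (hasScale_laurentBaseChange A M) r →
          HasMove A (hasScale_laurentBaseChange A M) r →
          ∀ Dz : Divisor (AlgebraicClosure ℚ) ↥(modularFunctionFieldBar M),
            Divisor.IsPrincipal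
              (Finsupp.mapDomain r (heckeDivBar hα hβ Dz) - Tt (Finsupp.mapDomain r Dz))) ∧
      (∀ (hα : HeckeAlphaBarIntegral (AlgebraicClosure ℚ) (M * q) ℓ)
          (hβ : HeckeBetaBarIntegral (AlgebraicClosure ℚ) (M * q) ℓ)
          [HasPrincipalDivisors (AlgebraicClosure ℚ) ↥(modularFunctionFieldBar (M * q * ℓ))]
          (D : Divisor (AlgebraicClosure ℚ) ↥(FNbar (M * q))) (f : ↥(gaussV A (M * q))),
          gaussRes A (M * q) f ≠ 0 →
          (∀ P : Place (AlgebraicClosure ℚ) ↥(FNbar (M * q)),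
            (p : ℤ) * D P = P.ord ((f : ↥(FNbar (M * q))))) →
          ∀ g : ↥(redField A (modularFunctionFieldBar M) (hasScale_laurentBaseChange A M)),
            (g : LaurentSeries (kV A)) = (gaussRes A (M * q) f : LaurentSeries (kV A)) →
          ∀ D' : Divisor (kV A)
              ↥(redField A (modularFunctionFieldBar M) (hasScale_laurentBaseChange A M)),
            (∀ Q, (p : ℤ) * D' Q = Q.ord g) →
          ∀ t : ℤ, Divisor.IsPrincipal (heckeDivBar hα hβ D - t • D) →
            Divisor.IsPrincipal (Tt D' - t • D'))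

section Transport

variable {k K : Type*} [Field k] [Field K] [Algebra k K]

/-- Transport of a property of intermediate fields along an equality. -/
theorem transport_field (φ : IntermediateField k K → Prop) {E₁ E₂ : IntermediateField k K}
    (e : E₁ = E₂) (h : φ E₁) : φ E₂ := e ▸ h

/-- Transport of an element along an equality of intermediate fields. -/
theorem exists_transport {E₁ E₂ : IntermediateField k K} (e : E₁ = E₂) (x : ↥E₁) :
    ∃ g : ↥E₂, (g : K) = (x : K) ∧ (x ≠ 0 → g ≠ 0) := by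
  subst e
  exact ⟨x, rfl, id⟩

end Transport

section Divide

variable {k E : Type*} [Field k] [Field E] [Algebra k E]

/-- A divisor all of whose coefficients are divisible by `p ≠ 0` is `p` times a divisor. -/
theorem exists_divisor_div (p : ℕ) (hp : p ≠ 0) (Dg : Divisor k E)
    (hdvd : ∀ Q : Place k E, (p : ℤ) ∣ Dg Q) :
    ∃ D' : Divisor k E, ∀ Q : Place k E, (p : ℤ) * D' Q = Dg Q := by
  have hpZ : (p : ℤ) ≠ 0 := by exact_mod_cast hp
  refine ⟨Finsupp.mapRange (fun n : ℤ => n / (p : ℤ)) (by simp) Dg, fun Q => ?_⟩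
  rw [Finsupp.mapRange_apply]
  exact Int.mul_ediv_cancel' (hdvd Q)

end Divide

/-- **OLD-RED from HECKE-RED.** -/
theorem stmt_OldRed_of_heckeRed (hHR : Stmt_HeckeRed) : Stmt_OldRed := by
  intro p hp N M q _ _ hN hq hqM A hA r hr hmove S t x hpx hF hK hT
  subst hN
  haveI : IsAlgClosed (kV A) := isAlgClosed_kV A
  have hcop : IsCoprime (q : ℤ) (M : ℤ) :=
    Nat.isCoprime_iff_coprime.2 ((Nat.Prime.coprime_iff_not_dvd hq).2 hqM)
  obtain ⟨a, b, hab⟩ := hcop
  have e : redField A (modularFunctionFieldBar (M * q)) (hasScale_laurentBaseChange A (M * q))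
      = redField A (modularFunctionFieldBar M) (hasScale_laurentBaseChange A M) :=
    Fermat.Agent.BAD.H82.redField_eq_redField q M a b hab hq A hA
  -- function field facts
  have hFFM := H95.stmt_HKA_isFF M
  have hFFN := H95.stmt_HKA_isFF (M * q)
  have hFt := isFF_redField_bar M q hq hqM A hA
  have HM := H17.ffHyp_of_isFF _ _ hFFM
  have HN := H17.ffHyp_of_isFF _ _ hFFN
  have Ht := H17.ffHyp_of_isFF _ _ hFt
  have hpZ : (p : ℤ) ≠ 0 := by exact_mod_cast hp.ne_zero
  -- the data of `Fin1`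
  obtain ⟨D, f, hxD, hf, hD, hdvd⟩ := hF
  -- transport of `res f` to the reduced field of level `M`
  obtain ⟨g, hg, hg0'⟩ := exists_transport e (gaussRes A (M * q) f)
  have hg0 : g ≠ 0 := hg0' hf
  -- divisibility at level `M`
  have hdvdM : ∀ Q : Place (kV A) ↥(redField A (modularFunctionFieldBar M)
      (hasScale_laurentBaseChange A M)), (p : ℤ) ∣ Q.ord g := by
    have h1 := transport_field
      (φ := fun E : IntermediateField (kV A) (LaurentSeries (kV A)) => ∀ g' : ↥E,
        (g' : LaurentSeries (kV A)) = (gaussRes A (M * q) f : LaurentSeries (kV A)) →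
        ∀ Q : Place (kV A) ↥E, (p : ℤ) ∣ Q.ord g') e
      (fun g' hg' Q => by
        have h2 : g' = gaussRes A (M * q) f := Subtype.ext hg'
        rw [h2]
        exact hdvd Q)
    exact h1 g hg
  -- the divisor `D' = div (res f) / p`
  obtain ⟨Dg, hDg, hDg0⟩ := Ht.principal.exists_divisor g hg0
  obtain ⟨D', hD'⟩ := exists_divisor_div p hp.ne_zero Dg (fun Q => by rw [hDg Q]; exact hdvdM Q)
  have hD'g : ∀ Q : Place (kV A) ↥(redField A (modularFunctionFieldBar M)
      (hasScale_laurentBaseChange A M)), (p : ℤ) * D' Q = Q.ord g := fun Q => by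
    rw [hD' Q, hDg Q]
  have hpD' : (p : ℤ) • D' = Dg := by
    ext Q
    rw [Finsupp.smul_apply, smul_eq_mul, hD' Q]
  have hD'deg : Divisor.degree D' = 0 := by
    have h2 : (p : ℤ) • Divisor.degree D' = 0 := by rw [← map_zsmul, hpD', hDg0]
    rcases smul_eq_zero.mp h2 with h | h
    · exact absurd h hpZ
    · exact h
  have hDgp : Dg ∈ Divisor.principal (K := kV A) (F := ↥(redField A (modularFunctionFieldBar M)
      (hasScale_laurentBaseChange A M))) := ⟨g, hg0, hDg⟩
  -- NONZERO
  have hD'np : D' ∉ Divisor.principal (K := kV A) (F := ↥(redField A (modularFunctionFieldBar M)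
      (hasScale_laurentBaseChange A M))) := by
    rintro ⟨g', hg'0, hg'⟩
    apply hK
    have key := transport_field
      (φ := fun E : IntermediateField (kV A) (LaurentSeries (kV A)) => ∀ g₁ : ↥E,
        (g₁ : LaurentSeries (kV A)) = (gaussRes A (M * q) f : LaurentSeries (kV A)) →
        ∃ g'' : ↥E, g'' ≠ 0 ∧ ∀ Q : Place (kV A) ↥E, Q.ord g₁ = (p : ℤ) * Q.ord g'') e.symm
      (fun g₁ hg₁ => ⟨g', hg'0, fun Q => by
        have h2 : g₁ = g := Subtype.ext (hg₁.trans hg.symm)
        rw [h2, ← hD'g Q, hg' Q]⟩)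
    obtain ⟨g'', hg''0, hg''⟩ := key (gaussRes A (M * q) f) rfl
    have hconstN := transport_field
      (φ := fun E : IntermediateField (kV A) (LaurentSeries (kV A)) => ∀ g₀ : ↥E, g₀ ≠ 0 →
        (∀ Q : Place (kV A) ↥E, Q.ord g₀ = 0) → ∃ c : kV A, g₀ = algebraMap (kV A) ↥E c) e.symm
      (fun g₀ h0 hQ => H36.const_of_ord_eq_zero hFt g₀ h0 hQ)
    obtain ⟨D₁, f₁, hDD₁, hf₁, hD₁⟩ := H75.exists_kummer_one_of_principal A
      (hasScale_laurentBaseChange A (M * q)) HN.principal hconstN p hp.ne_zero D f hf hD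
      g'' hg''0 hg''
    exact ⟨D₁, f₁, hxD.trans hDD₁, hf₁, hD₁⟩
  -- LIFT-PT
  obtain ⟨Dz, hDz⟩ := H75.exists_degZero_mapDomain_eq A (hasScale_laurentBaseChange A M) hr
    HM.principal HM.deg_one Ht.deg_one D' hD'deg
  refine ⟨Pic0.mk Dz, ?_, ?_, ?_⟩
  · rw [H36.redPic_mk, hDz]
    intro h0
    exact hD'np ((QuotientAddGroup.eq_zero_iff _).mp h0)
  · rw [H36.redPic_mk, hDz]
    have h1 : (p : ℤ) • (QuotientAddGroup.mk D' : Pic (kV A) ↥(redField A
        (modularFunctionFieldBar M) (hasScale_laurentBaseChange A M)))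
        = QuotientAddGroup.mk ((p : ℤ) • D') := rfl
    rw [h1, hpD']
    exact (QuotientAddGroup.eq_zero_iff _).mpr hDgp
  · intro ℓ hℓS hℓN hℓp
    haveI : NeZero (ℓ : ℕ) := ⟨ℓ.2.ne_zero⟩
    obtain ⟨Tt, hb, hc⟩ := hHR p hp M q (ℓ : ℕ) hq hqM ℓ.2 hℓN A hA
    obtain ⟨hαN, hβN, hPN, hfinN, hFIN, hNFN⟩ := H51.stmt_HKA (M * q) (ℓ : ℕ)
    obtain ⟨hαM, hβM, hPM, hfinM, hFIM, hNFM⟩ := H51.stmt_HKA M (ℓ : ℕ)
    -- the eigen-equation at level `N`
    have heig : Divisor.IsPrincipal (heckeDivBar hαN hβN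
        (D : Divisor (AlgebraicClosure ℚ) ↥(FNbar (M * q)))
        - t ℓ • (D : Divisor (AlgebraicClosure ℚ) ↥(FNbar (M * q)))) := by
      have h1 := hT ℓ hℓS hℓN hℓp
      rw [hxD, heckeOperatorBar_apply, heckeOperatorAlong_eq hαN hβN hFIN hfinN hNFN] at h1
      have hmk : heckePic0Bar hαN hβN hFIN hfinN hNFN (Pic0.mk D)
          = Pic0.mk (Pic0.degZeroCorrespondence (heckeBetaBar (AlgebraicClosure ℚ) (M * q) (ℓ : ℕ))
              (heckeAlphaBar (AlgebraicClosure ℚ) (M * q) (ℓ : ℕ)) hβN hαN hFIN D) := rfl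
      have h2 : t (ℓ : ℕ) • Pic0.mk D = Pic0.mk (t (ℓ : ℕ) • D) := rfl
      rw [hmk, h2] at h1
      have h3 := (QuotientAddGroup.eq (s := (Divisor.principal (K := AlgebraicClosure ℚ)
        (F := ↥(FNbar (M * q)))).addSubgroupOf
        (Divisor.degZero (K := AlgebraicClosure ℚ) (F := ↥(FNbar (M * q)))))).mp h1.symm
      rw [AddSubgroup.mem_addSubgroupOf] at h3
      have h4 : (heckeDivBar hαN hβN (D : Divisor (AlgebraicClosure ℚ) ↥(FNbar (M * q)))
          - t ℓ • (D : Divisor (AlgebraicClosure ℚ) ↥(FNbar (M * q))))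
          = -(t ℓ • (D : Divisor (AlgebraicClosure ℚ) ↥(FNbar (M * q))))
            + heckeDivBar hαN hβN (D : Divisor (AlgebraicClosure ℚ) ↥(FNbar (M * q))) := by
        abel
      rw [h4]
      exact h3
    have hcD' := hc hαN hβN (D : Divisor (AlgebraicClosure ℚ) ↥(FNbar (M * q))) f hf hD g hg
      D' hD'g (t ℓ) heig
    have hbDz := hb hαM hβM r hr hmove (Dz : Divisor (AlgebraicClosure ℚ)
      ↥(modularFunctionFieldBar M))
    rw [hDz] at hbDz
    -- conclusion
    rw [heckeOperatorBar_apply, heckeOperatorAlong_eq hαM hβM hFIM hfinM hNFM]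
    have hmkM : heckePic0Bar hαM hβM hFIM hfinM hNFM (Pic0.mk Dz)
        = Pic0.mk (Pic0.degZeroCorrespondence (heckeBetaBar (AlgebraicClosure ℚ) M (ℓ : ℕ))
            (heckeAlphaBar (AlgebraicClosure ℚ) M (ℓ : ℕ)) hβM hαM hFIM Dz) := rfl
    rw [hmkM, H36.redPic_mk, H36.redPic_mk, hDz]
    have h5 : t (ℓ : ℕ) • (QuotientAddGroup.mk D' : Pic (kV A) ↥(redField A
        (modularFunctionFieldBar M) (hasScale_laurentBaseChange A M)))
        = QuotientAddGroup.mk (t (ℓ : ℕ) • D') := rfl
    rw [h5]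
    refine (QuotientAddGroup.eq (s := Divisor.principal (K := kV A)
      (F := ↥(redField A (modularFunctionFieldBar M) (hasScale_laurentBaseChange A M))))).mpr ?_
    have h6 := (Divisor.principal (K := kV A) (F := ↥(redField A (modularFunctionFieldBar M)
      (hasScale_laurentBaseChange A M)))).neg_mem
      ((Divisor.principal (K := kV A) (F := ↥(redField A (modularFunctionFieldBar M)
      (hasScale_laurentBaseChange A M)))).add_mem hbDz hcD')
    convert h6 using 1
    show -(Finsupp.mapDomain r (heckeDivBar hαM hβM (Dz : Divisor (AlgebraicClosure ℚ)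
      ↥(modularFunctionFieldBar M)))) + t (ℓ : ℕ) • D' = _
    abel

end Fermat.Agent.S43.Old
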