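import Fermat.Agent.S43.Old.H75_WireAbs
import Fermat.Agent.S43.Old.H75_Star
import Fermat.Agent.S43.Old.H75_Ker
import Fermat.Agent.L.LiftEig.H37_TorsRel
import Fermat.Agent.L.LiftEig.H46_CharMStmt
import Fermat.Agent.GTor.H2_GalHecke

/-!
# LIFT-EIG, generic form (helper75)

`liftEig_of` : let `q ∤ M`, `A` over `q`, `redM : J₀(M)(ℚ̄) → Pic (F~_M)` the reduction map.  If
`z ∈ J₀(M)` has a non-zero reduction `y = redM z` killed by the prime `p` (`p = q` allowed) and
`redM (T_ℓ z) = t_ℓ y` for all primes `ℓ ∉ S`, `ℓ ∤ M`, then there is a normalised eigenform `g` of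
level `M` and a maximal ideal `𝔪 ∋ p` with `a_ℓ(g) ≡ t_ℓ mod 𝔪` for all these `ℓ`.

The only hypothesis is `RED.H51.Stmt_HRcore` (stability of `ker redM` under the Hecke operators);
STAR, TORS-REL and CHAR-M are proved.  This is the form to use at other levels (three-component
fibres, `q² ∥ N`, ...): produce `z` and apply `liftEig_of`.
-/

set_option autoImplicit false
set_option linter.style.haveILetI false
set_option linter.unusedSectionVars false
set_option synthInstance.maxHeartbeats 400000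
set_option maxHeartbeats 1600000

noncomputable section

open AlgebraicCurve ModularCurve Fermat.Agent.S28.H73 Fermat.Agent.RED.H73
open Fermat.Agent.RED Fermat.Agent.L.LiftEig

namespace Fermat.Agent.S43.Old

/-- **LIFT-EIG**, generic form. -/
theorem liftEig_of (hcore : H51.Stmt_HRcore) (p : ℕ) (hp : p.Prime) (M q : ℕ) [NeZero M]
    (hq : q.Prime) (hqM : ¬ q ∣ M) (A : ValuationSubring (AlgebraicClosure ℚ))
    (hA : A.LiesOverPrime q)
    (r : Place (AlgebraicClosure ℚ) ↥(modularFunctionFieldBar M) →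
        Place (kV A) ↥(redField A (modularFunctionFieldBar M) (hasScale_laurentBaseChange A M)))
    (hr : IsRed A (hasScale_laurentBaseChange A M) r)
    (hmove : HasMove A (hasScale_laurentBaseChange A M) r)
    (S : Finset ℕ) (t : ℕ → ℤ) (z : JZero M)
    (hz0 : H36.redPic A (hasScale_laurentBaseChange A M) hr z ≠ 0)
    (hzp : (p : ℤ) • H36.redPic A (hasScale_laurentBaseChange A M) hr z = 0)
    (hzT : ∀ ℓ : Nat.Primes, (ℓ : ℕ) ∉ S → ¬ (ℓ : ℕ) ∣ M →
      H36.redPic A (hasScale_laurentBaseChange A M) hr (heckeOperatorBar M ℓ z)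
        = t ℓ • H36.redPic A (hasScale_laurentBaseChange A M) hr z) :
    ∃ (g : CuspForm (CongruenceSubgroup.Gamma0 M) 2) (𝔪 : Ideal (integralClosure ℤ ℂ)),
      g.IsNormalizedEigenform ∧ 𝔪.IsMaximal ∧ (p : integralClosure ℤ ℂ) ∈ 𝔪 ∧
      ∀ ℓ : ℕ, ℓ.Prime → ℓ ∉ S → ¬ ℓ ∣ M →
        ∃ a : integralClosure ℤ ℂ, (a : ℂ) = ModularFormClass.qCoeff g ℓ ∧
          a - ((t ℓ : ℤ) : integralClosure ℤ ℂ) ∈ 𝔪 := by
  refine H46.stmt_CharM p hp M S t fun P hP => ?_
  -- `P(T)` kills the reduction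
  have h1 : H36.redPic A (hasScale_laurentBaseChange A M) hr (evalJ M ↑S P z) = 0 := by
    refine H75.stmt_Star M q hq hqM A hA r hr (evalJ M ↑S P).toAddMonoidHom ?_ ?_ z
    · intro σ y
      exact H75.lift_smul_comm
        (fun ℓ : GoodPrime M (↑S : Set ℕ) => heckeOperatorBar M ⟨ℓ.1, ℓ.2.1⟩)
        (fun ℓ σ y => (Fermat.Agent.GTor.H2.stmt_GalHecke M ⟨ℓ.1, ℓ.2.1⟩ σ y).symm)
        P σ y
    · intro h hh y hy
      exact H37.stmt_TorsRel M ↑S P hP h hh y hy
  -- `redM (P(T) z) = P(t) redM z`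
  have h2 := H75.red_lift_eq (H36.redPic A (hasScale_laurentBaseChange A M) hr)
    (fun ℓ : GoodPrime M (↑S : Set ℕ) => heckeOperatorBar M ⟨ℓ.1, ℓ.2.1⟩)
    (fun ℓ : GoodPrime M (↑S : Set ℕ) => t ℓ.1)
    (fun ℓ u hu => H75.redPic_heckeOperatorBar_eq_zero hcore M q hq hqM A hA r hr hmove
      ⟨ℓ.1, ℓ.2.1⟩ u hu)
    z
    (fun ℓ => hzT ⟨ℓ.1, ℓ.2.1⟩ (fun h => ℓ.2.2.2 (Finset.mem_coe.mpr h)) ℓ.2.2.1)
    P z 1 (one_smul ℤ _).symm
  have h3 : evalt M ↑S t P • H36.redPic A (hasScale_laurentBaseChange A M) hr z = 0 := by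
    have h4 : H36.redPic A (hasScale_laurentBaseChange A M) hr (evalJ M ↑S P z)
        = (evalt M ↑S t P * 1) • H36.redPic A (hasScale_laurentBaseChange A M) hr z := h2
    rw [h1, mul_one] at h4
    exact h4.symm
  exact H75.dvd_of_smul_eq_zero hp hz0 hzp h3

end Fermat.Agent.S43.Old
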